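import Fermat.Agent.S19.H315.OrthoBasis
import Fermat.Prelude.Def_AlgebraicCurve_Repartitions

/-!
# Cell A3 / WP-W4 (helper315): integral Riemann–Roch lattices

`GaussDatum A π F Fk` is the abstract form of "the function field `F / L` has a Gauss valuation
over the valuation ring `A ⊆ L` whose residue field contains the function field `Fk / k`":
the ring `O ⊆ F` of integral functions, the reduction `red : O → Fk`, the place reduction
`r : Place L F → Place k Fk` with `r_* (div f) = div (red f)`.  It is the exact shape of the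
Prelude's `ModularCurve.IsPlaceReductionAlong` (+ value group = value group of `L`).

Main result `GaussDatum.exists_orthonormal_basis`: for a divisor `E` of `F` such that
* `L(E) ∩ O` is contained in a finitely generated `A`-module of integral functions, and
* `dim_k L(r_* E) ≤ dim_L L(E)` (Riemann–Roch on both sides, equal genus, `deg E > 2g - 2`),
the lattice `L(E) ∩ O` is free over `A` with a basis `e` which is an `L`-basis of `L(E)` and
whose reduction is a `k`-basis of `L(r_* E)`.
-/

set_option autoImplicit false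

open AlgebraicCurve Module

namespace Fermat.Agent.S19.H315

/-- Abstract Gauss valuation / reduction datum between two function fields. -/
structure GaussDatum {L : Type*} [Field L] (A : ValuationSubring L) {k : Type*} [Field k]
    (π : A →+* k) (F : Type*) [Field F] [Algebra L F] (Fk : Type*) [Field Fk] [Algebra k Fk] where
  /-- the integral functions -/
  O : Subring F
  algebraMap_mem : ∀ a : A, algebraMap L F (a : L) ∈ O
  /-- reduction of integral functions -/
  red : O →+* Fk
  red_algebraMap : ∀ a : A,
    red ⟨algebraMap L F (a : L), algebraMap_mem a⟩ = algebraMap k Fk (π a)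
  exists_scale : ∀ f : F, f ≠ 0 → ∃ c : L, c ≠ 0 ∧ ∃ h : c • f ∈ O, red ⟨c • f, h⟩ ≠ 0
  /-- reduction of places -/
  r : Place L F → Place k Fk
  ord_red : ∀ f : O, red f ≠ 0 → ∀ D : Divisor L F, (∀ P, D P = P.ord (f : F)) →
    ∀ Q, Finsupp.mapDomain r D Q = Q.ord (red f)

namespace GaussDatum

variable {L : Type*} [Field L] {A : ValuationSubring L} {k : Type*} [Field k] {π : A →+* k}
variable {F : Type*} [Field F] [Algebra L F] {Fk : Type*} [Field Fk] [Algebra k Fk]
variable (G : GaussDatum A π F Fk)

theorem smul_mem_O (a : A) {f : F} (hf : f ∈ G.O) : a • f ∈ G.O := by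
  have h : a • f = algebraMap L F (a : L) * f := by
    rw [← Algebra.smul_def]
    rfl
  rw [h]
  exact G.O.mul_mem (G.algebraMap_mem a) hf

/-- The integral lattice `L(E) ∩ O`. -/
def lattice (E : Divisor L F) : Submodule A F where
  carrier := {f | f ∈ G.O ∧ f ∈ riemannRochSpace E}
  zero_mem' := ⟨G.O.zero_mem, Submodule.zero_mem _⟩
  add_mem' := fun hf hg => ⟨G.O.add_mem hf.1 hg.1, Submodule.add_mem _ hf.2 hg.2⟩
  smul_mem' := fun a f hf => ⟨G.smul_mem_O a hf.1, by
    have h : a • f = (a : L) • f := rfl
    rw [h]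
    exact Submodule.smul_mem _ _ hf.2⟩

theorem mem_lattice {E : Divisor L F} {f : F} :
    f ∈ G.lattice E ↔ f ∈ G.O ∧ f ∈ riemannRochSpace E := Iff.rfl

/-- Reduction on the lattice. -/
def redLattice (E : Divisor L F) : G.lattice E →+ Fk where
  toFun f := G.red ⟨f, f.2.1⟩
  map_zero' := by
    have : (⟨((0 : G.lattice E) : F), (0 : G.lattice E).2.1⟩ : G.O) = 0 := rfl
    rw [this, map_zero]
  map_add' f g := by
    have : (⟨((f + g : G.lattice E) : F), (f + g).2.1⟩ : G.O)
        = ⟨f, f.2.1⟩ + ⟨g, g.2.1⟩ := rfl
    rw [this, map_add]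

theorem redLattice_apply (E : Divisor L F) (f : G.lattice E) :
    G.redLattice E f = G.red ⟨f, f.2.1⟩ := rfl

theorem redLattice_smul (E : Divisor L F) (a : A) (f : G.lattice E) :
    G.redLattice E (a • f) = π a • G.redLattice E f := by
  have h : (⟨((a • f : G.lattice E) : F), (a • f).2.1⟩ : G.O)
      = ⟨algebraMap L F (a : L), G.algebraMap_mem a⟩ * ⟨f, f.2.1⟩ := by
    apply Subtype.ext
    show a • (f : F) = algebraMap L F (a : L) * (f : F)
    rw [← Algebra.smul_def]
    rfl
  rw [redLattice_apply, h, map_mul, G.red_algebraMap, redLattice_apply, Algebra.smul_def]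

/-- `mapDomain` of a non-negative divisor is non-negative. -/
theorem mapDomain_nonneg_h315 {α β : Type*} (r : α → β) (D : α →₀ ℤ) (hD : ∀ a, 0 ≤ D a)
    (b : β) : 0 ≤ Finsupp.mapDomain r D b := by
  classical
  rw [Finsupp.mapDomain, Finsupp.sum_apply]
  apply Finset.sum_nonneg
  intro a _
  show 0 ≤ (Finsupp.single (r a) (D a)) b
  rw [Finsupp.single_apply]
  split_ifs
  · exact hD a
  · exact le_rfl

/-- The reduction of an integral function of `L(E)` lies in `L(r_* E)`. -/
theorem red_mem_riemannRochSpace [HasPrincipalDivisors L F] (E : Divisor L F)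
    (f : G.lattice E) :
    G.redLattice E f ∈ riemannRochSpace (Finsupp.mapDomain G.r E) := by
  rw [mem_riemannRochSpace_iff]
  intro Q
  by_cases h0 : G.redLattice E f = 0
  · exact Or.inl h0
  right
  have hf0 : (f : F) ≠ 0 := by
    intro h
    apply h0
    have : f = 0 := Subtype.ext h
    rw [this, map_zero]
  obtain ⟨D, hD, -⟩ := HasPrincipalDivisors.exists_divisor (K := L) (f : F) hf0
  have hord := G.ord_red ⟨f, f.2.1⟩ h0 D hD Q
  rw [redLattice_apply, ← hord]
  have hnn : ∀ P, 0 ≤ (D + E) P := by
    intro P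
    rw [Finsupp.add_apply, hD P]
    have := (mem_riemannRochSpace_iff.mp f.2.2 P).resolve_left hf0
    linarith
  have := mapDomain_nonneg_h315 G.r (D + E) hnn Q
  rw [Finsupp.mapDomain_add, Finsupp.add_apply] at this
  linarith

/-- **W4.**  Orthonormal basis of the integral Riemann–Roch lattice `L(E) ∩ O`. -/
theorem exists_orthonormal_basis [HasPrincipalDivisors L F] (hπ : Function.Surjective π)
    (E : Divisor L F) [FiniteDimensional L (riemannRochSpace E)]
    [FiniteDimensional k (riemannRochSpace (Finsupp.mapDomain G.r E))]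
    (hdim : finrank k (riemannRochSpace (Finsupp.mapDomain G.r E))
      ≤ finrank L (riemannRochSpace E))
    (N : Submodule A F) (hN : N.FG) (hNO : ∀ n ∈ N, n ∈ G.O) (hΛN : G.lattice E ≤ N) :
    ∃ (n : ℕ) (e : Fin n → F) (he : ∀ i, e i ∈ G.lattice E),
      n = finrank L (riemannRochSpace E) ∧ LinearIndependent L e ∧
      Submodule.span L (Set.range e) = riemannRochSpace E ∧
      Submodule.span A (Set.range e) = G.lattice E ∧
      LinearIndependent k (fun i => G.redLattice E ⟨e i, he i⟩) ∧
      Submodule.span k (Set.range fun i => G.redLattice E ⟨e i, he i⟩)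
        = riemannRochSpace (Finsupp.mapDomain G.r E) := by
  refine Fermat.Agent.S19.H315.exists_orthonormal_basis L π hπ (riemannRochSpace E)
    (G.lattice E) (fun f hf => hf.2) (G.redLattice E) (G.redLattice_smul E) ?_ N hN hΛN
    (fun n hn hnV => ⟨hNO n hn, hnV⟩) (riemannRochSpace (Finsupp.mapDomain G.r E))
    (G.red_mem_riemannRochSpace E) hdim
  intro f hf hf0
  obtain ⟨c, hc, h, hred⟩ := G.exists_scale f hf0
  exact ⟨c, hc, ⟨h, Submodule.smul_mem _ _ hf⟩, hred⟩

theorem lattice_mono {E E' : Divisor L F} (h : E ≤ E') : G.lattice E ≤ G.lattice E' := by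
  intro f hf
  refine ⟨hf.1, ?_⟩
  rw [mem_riemannRochSpace_iff]
  intro v
  rcases mem_riemannRochSpace_iff.mp hf.2 v with h0 | h1
  · exact Or.inl h0
  · right
    have := Finsupp.le_def.mp h v
    linarith

/-- **W4, base step for sub-divisors.**  If the lattice of `E'` is finitely generated, then
for every `E ≤ E'` with `dim_k L(r_* E) ≤ dim_L L(E)` the lattice of `E` has an orthonormal
basis. -/
theorem exists_orthonormal_basis_of_le [HasPrincipalDivisors L F] (hπ : Function.Surjective π)
    {E E' : Divisor L F} (hE : E ≤ E') (hfg : (G.lattice E').FG)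
    [FiniteDimensional L (riemannRochSpace E)]
    [FiniteDimensional k (riemannRochSpace (Finsupp.mapDomain G.r E))]
    (hdim : finrank k (riemannRochSpace (Finsupp.mapDomain G.r E))
      ≤ finrank L (riemannRochSpace E)) :
    ∃ (n : ℕ) (e : Fin n → F) (he : ∀ i, e i ∈ G.lattice E),
      n = finrank L (riemannRochSpace E) ∧ LinearIndependent L e ∧
      Submodule.span L (Set.range e) = riemannRochSpace E ∧
      Submodule.span A (Set.range e) = G.lattice E ∧
      LinearIndependent k (fun i => G.redLattice E ⟨e i, he i⟩) ∧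
      Submodule.span k (Set.range fun i => G.redLattice E ⟨e i, he i⟩)
        = riemannRochSpace (Finsupp.mapDomain G.r E) :=
  G.exists_orthonormal_basis hπ E hdim (G.lattice E') hfg (fun _ hn => hn.1)
    (G.lattice_mono hE)

/-- **W4, lifting.**  Under the hypotheses of `exists_orthonormal_basis`, every element of
`L(r_* E)` is the reduction of an integral function of `L(E)`. -/
theorem exists_lift [HasPrincipalDivisors L F] (hπ : Function.Surjective π)
    (E : Divisor L F) [FiniteDimensional L (riemannRochSpace E)]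
    [FiniteDimensional k (riemannRochSpace (Finsupp.mapDomain G.r E))]
    (hdim : finrank k (riemannRochSpace (Finsupp.mapDomain G.r E))
      ≤ finrank L (riemannRochSpace E))
    (N : Submodule A F) (hN : N.FG) (hNO : ∀ n ∈ N, n ∈ G.O) (hΛN : G.lattice E ≤ N)
    (g : Fk) (hg : g ∈ riemannRochSpace (Finsupp.mapDomain G.r E)) :
    ∃ f : G.lattice E, G.redLattice E f = g := by
  classical
  obtain ⟨n, e, he, -, -, -, -, -, hspan⟩ := G.exists_orthonormal_basis hπ E hdim N hN hNO hΛN
  rw [← hspan] at hg
  obtain ⟨κ, hκ⟩ := (Submodule.mem_span_range_iff_exists_fun k).mp hg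
  choose a ha using fun i => hπ (κ i)
  refine ⟨∑ i, a i • (⟨e i, he i⟩ : G.lattice E), ?_⟩
  rw [map_sum, ← hκ]
  refine Finset.sum_congr rfl fun i _ => ?_
  rw [G.redLattice_smul, ha]

/-- **W4, kernel of reduction.**  Under the hypotheses of `exists_orthonormal_basis`, an
integral function of `L(E)` with zero reduction is a multiple of an integral function of
`L(E)` by an element of `ker π`. -/
theorem exists_eq_smul_of_red_eq_zero (E : Divisor L F) (f : G.lattice E)
    (hf : G.redLattice E f = 0) (hf0 : (f : F) ≠ 0) :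
    ∃ (a : A) (f' : G.lattice E), π a = 0 ∧ f = a • f' ∧ G.redLattice E f' ≠ 0 := by
  obtain ⟨c, hc, h, hred⟩ := G.exists_scale f hf0
  have hmem : c • (f : F) ∈ G.lattice E := ⟨h, Submodule.smul_mem _ _ f.2.2⟩
  rcases ValuationRing.isInteger_or_isInteger A c with ⟨a', ha'⟩ | ⟨a', ha'⟩
  · exfalso
    apply hred
    have h1 : (⟨c • (f : F), hmem⟩ : G.lattice E) = a' • f := by
      apply Subtype.ext
      show c • (f : F) = a' • (f : F)
      rw [← ha', algebraMap_smul]
    have h2 : G.redLattice E ⟨c • (f : F), hmem⟩ = 0 := by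
      rw [h1, G.redLattice_smul, hf, smul_zero]
    exact h2
  · have hcf : f = a' • (⟨c • (f : F), hmem⟩ : G.lattice E) := by
      apply Subtype.ext
      show (f : F) = a' • (c • (f : F))
      rw [← algebraMap_smul L a', ha', smul_smul, inv_mul_cancel₀ hc, one_smul]
    have h1 : G.redLattice E f = π a' • G.redLattice E ⟨c • (f : F), hmem⟩ := by
      rw [← G.redLattice_smul]
      exact congrArg _ hcf
    rw [hf] at h1
    have hred' : G.redLattice E ⟨c • (f : F), hmem⟩ ≠ 0 := hred
    exact ⟨a', ⟨c • (f : F), hmem⟩, (smul_eq_zero.mp h1.symm).resolve_right hred', hcf, hred'⟩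

end GaussDatum

end Fermat.Agent.S19.H315
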