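import Fermat.Agent.S19.H315.OrthoBasis

/-!
# Cell A3 / WP-W4 (helper315): integral lattices, part 2 (Mathlib-only)

Same setting as `OrthoBasis.lean`.

* `linearIndependent_of_red` : elements of `Λ` with `k`-independent reductions are
  `L`-independent ("orthonormality").  No finiteness hypothesis.
* `mem_span_of_basis_of_red` : if `e` is an `L`-basis of `V` contained in `Λ` with
  `k`-independent reductions, then `Λ = ⊕ A e i`.  No finiteness hypothesis.
* `exists_lattice_basis` : the conclusion of `exists_orthonormal_basis` without the target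
  space `Wt` (and without the hypothesis `hdim`).
* `finrank_eq_of_onto` : if moreover the reduction is onto a `k`-space `Wt`, then
  `dim_k Wt = dim_L V`.
-/

set_option autoImplicit false

open Module

namespace Fermat.Agent.S19.H315

section Local

variable {A : Type*} [CommRing A] [IsLocalRing A] {k : Type*} [Field k] (π : A →+* k)

/-- A surjective ring homomorphism from a local ring to a field kills the maximal ideal. -/
theorem map_eq_zero_of_mem_maximalIdeal_h315 (hπ : Function.Surjective π) {a : A}
    (ha : a ∈ IsLocalRing.maximalIdeal A) : π a = 0 := by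
  by_contra h0
  obtain ⟨b, hb⟩ := hπ (π a)⁻¹
  have h1 : π (a * b) = 1 := by rw [map_mul, hb, mul_inv_cancel₀ h0]
  have h2 : a * b ∈ IsLocalRing.maximalIdeal A := Ideal.mul_mem_right _ _ ha
  have h3 : IsUnit (1 - a * b) :=
    IsLocalRing.isUnit_one_sub_self_of_mem_nonunits _ ((IsLocalRing.mem_maximalIdeal _).mp h2)
  have h4 : π (1 - a * b) = 0 := by rw [map_sub, map_one, h1, sub_self]
  exact (h3.map π).ne_zero h4

end Local

section Core2

variable {A : Type*} [CommRing A] [IsDomain A] [ValuationRing A]
variable (L : Type*) [Field L] [Algebra A L] [IsFractionRing A L]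
variable {M : Type*} [AddCommGroup M] [Module L M] [Module A M] [IsScalarTower A L M]

include L

/-- In a finite family of elements of `L`, not all zero, there is a non-zero one dividing all
the others (in `A`). -/
theorem exists_pivot_h315 {ι : Type*} [Fintype ι] (c : ι → L) (hc : ∃ i, c i ≠ 0) :
    ∃ i₀, c i₀ ≠ 0 ∧ ∀ i, ∃ a : A, algebraMap A L a = c i / c i₀ := by
  classical
  obtain ⟨j, hj⟩ := hc
  have : Nonempty ι := ⟨j⟩
  obtain ⟨i₀, -, hmax⟩ := Finset.exists_max_image Finset.univ
    (fun i => ValuationRing.valuation A L (c i)) ⟨j, Finset.mem_univ j⟩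
  have hi₀ : c i₀ ≠ 0 := by
    intro h0
    have h1 := hmax j (Finset.mem_univ j)
    rw [h0, map_zero] at h1
    exact hj ((map_eq_zero _).mp (le_antisymm h1 zero_le))
  refine ⟨i₀, hi₀, fun i => ?_⟩
  rw [← ValuationRing.mem_integer_iff, Valuation.mem_integer_iff, map_div₀]
  exact div_le_one_of_le₀ (hmax i (Finset.mem_univ i)) zero_le

variable {k : Type*} [Field k] (π : A →+* k)
variable {W : Type*} [AddCommGroup W] [Module k W]
variable (Λ : Submodule A M) (red : Λ →+ W)


/-- **Orthonormality.**  Elements of `Λ` with linearly independent reductions are linearly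
independent over `L`. -/
theorem linearIndependent_of_red (hred : ∀ (a : A) (f : Λ), red (a • f) = π a • red f)
    {ι : Type*} [Fintype ι] (f : ι → Λ) (hf : LinearIndependent k (fun i => red (f i))) :
    LinearIndependent L (fun i => ((f i : Λ) : M)) := by
  classical
  rw [Fintype.linearIndependent_iff]
  intro c hc
  by_contra hne
  push Not at hne
  obtain ⟨i₀, hi₀, ha⟩ := exists_pivot_h315 (A := A) L c hne
  choose a ha using ha
  -- `∑ a i • f i = 0` in `Λ`
  have h1 : ∑ i, a i • f i = 0 := by
    apply Subtype.ext
    have h2 : ((∑ i, a i • f i : Λ) : M) = (c i₀)⁻¹ • ∑ i, c i • ((f i : Λ) : M) := by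
      rw [Finset.smul_sum]
      push_cast
      refine Finset.sum_congr rfl fun i _ => ?_
      rw [← algebraMap_smul L (a i), ha i, smul_smul]
      congr 1
      field_simp
    rw [h2, hc, smul_zero]
    rfl
  have h3 : ∑ i, π (a i) • red (f i) = 0 := by
    have := congrArg red h1
    rw [map_sum, map_zero] at this
    simpa only [hred] using this
  have h4 := Fintype.linearIndependent_iff.mp hf (fun i => π (a i)) h3 i₀
  have h5 : a i₀ = 1 := by
    apply IsFractionRing.injective A L
    rw [ha i₀, div_self hi₀, map_one]
  rw [h5, map_one] at h4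
  exact one_ne_zero h4

/-- If an `L`-basis of `V` lies in `Λ` and has independent reductions, it is an `A`-basis of
`Λ`. -/
theorem mem_span_of_basis_of_red (hπ : Function.Surjective π)
    (hred : ∀ (a : A) (f : Λ), red (a • f) = π a • red f)
    (V : Submodule L M) (hΛV : ∀ f ∈ Λ, f ∈ V)
    {ι : Type*} [Fintype ι] (e : ι → Λ) (hspan : V ≤ Submodule.span L (Set.range fun i => ((e i : Λ) : M)))
    (he : LinearIndependent k (fun i => red (e i))) (f : Λ) :
    ∃ a : ι → A, f = ∑ i, a i • e i := by
  classical
  have hf : (f : M) ∈ Submodule.span L (Set.range fun i => ((e i : Λ) : M)) := hspan (hΛV _ f.2)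
  obtain ⟨c, hc⟩ := (Submodule.mem_span_range_iff_exists_fun L).mp hf
  -- the family `(f, e i)` with coefficients `(-1, c i)` is a relation
  by_contra hno
  push Not at hno
  -- consider the family indexed by `Option ι`
  let c' : Option ι → L := fun o => o.elim (-1) c
  have hc' : ∃ o, c' o ≠ 0 := ⟨none, by simp [c']⟩
  obtain ⟨o₀, ho₀, ha⟩ := exists_pivot_h315 (A := A) L c' hc'
  choose a ha using ha
  let g : Option ι → Λ := fun o => o.elim f e
  have h1 : ∑ o, a o • g o = 0 := by
    apply Subtype.ext
    have h2 : ((∑ o, a o • g o : Λ) : M) = (c' o₀)⁻¹ • ∑ o, c' o • ((g o : Λ) : M) := by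
      rw [Finset.smul_sum]
      push_cast
      refine Finset.sum_congr rfl fun o _ => ?_
      rw [← algebraMap_smul L (a o), ha o, smul_smul]
      congr 1
      field_simp
    have h3 : ∑ o, c' o • ((g o : Λ) : M) = 0 := by
      rw [Fintype.sum_option]
      simp only [c', g, Option.elim]
      rw [hc]
      simp
    rw [h2, h3, smul_zero]
    rfl
  rw [Fintype.sum_option] at h1
  simp only [g, Option.elim] at h1
  -- reduce
  have h4 : π (a none) • red f + ∑ i, π (a (some i)) • red (e i) = 0 := by
    have := congrArg red h1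
    rw [map_add, map_sum, map_zero] at this
    simpa only [hred] using this
  by_cases hnone : IsUnit (a none)
  · -- then `f` is an `A`-combination
    obtain ⟨u, hu⟩ := hnone
    apply hno (fun i => -(↑u⁻¹ : A) * a (some i))
    have h5 : a none • f = -∑ i, a (some i) • e i := eq_neg_of_add_eq_zero_left h1
    have h6 : f = (↑u⁻¹ : A) • (a none • f) := by
      rw [smul_smul, ← hu, Units.inv_mul, one_smul]
    rw [h6, h5, smul_neg, Finset.smul_sum, ← Finset.sum_neg_distrib]
    refine Finset.sum_congr rfl fun i _ => ?_
    rw [smul_smul, neg_mul, neg_smul]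
  · -- then the pivot is some `i₀`, and the reduction gives a non-trivial relation
    have hπ0 : π (a none) = 0 :=
      map_eq_zero_of_mem_maximalIdeal_h315 π hπ ((IsLocalRing.mem_maximalIdeal _).mpr hnone)
    cases o₀ with
    | none =>
      exfalso
      apply hnone
      have : a none = 1 := by
        apply IsFractionRing.injective A L
        rw [ha none, div_self ho₀, map_one]
      rw [this]
      exact isUnit_one
    | some i₀ =>
      have h7 : ∑ i, π (a (some i)) • red (e i) = 0 := by
        rw [hπ0, zero_smul, zero_add] at h4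
        exact h4
      have h8 := Fintype.linearIndependent_iff.mp he (fun i => π (a (some i))) h7 i₀
      have h9 : a (some i₀) = 1 := by
        apply IsFractionRing.injective A L
        rw [ha (some i₀), div_self ho₀, map_one]
      rw [h9, map_one] at h8
      exact one_ne_zero h8

/-- **Orthonormal basis from surjectivity of the reduction** (no finiteness hypothesis on
`Λ`): if `red : Λ → Wt` is onto and `dim_L V ≤ dim_k Wt`, then any lift of a basis of `Wt` is an
`L`-basis of `V` and an `A`-basis of `Λ`. -/
theorem exists_orthonormal_basis_of_onto (hπ : Function.Surjective π)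
    (hred : ∀ (a : A) (f : Λ), red (a • f) = π a • red f)
    (V : Submodule L M) [FiniteDimensional L V] (hΛV : ∀ f ∈ Λ, f ∈ V)
    (Wt : Submodule k W) [FiniteDimensional k Wt]
    (honto : ∀ w ∈ Wt, ∃ f : Λ, red f = w)
    (hdim : finrank L V ≤ finrank k Wt) :
    ∃ e : Fin (finrank k Wt) → Λ,
      finrank k Wt = finrank L V ∧
      LinearIndependent L (fun i => ((e i : Λ) : M)) ∧
      Submodule.span L (Set.range fun i => ((e i : Λ) : M)) = V ∧
      (∀ f : Λ, ∃ a : Fin (finrank k Wt) → A, f = ∑ i, a i • e i) ∧
      LinearIndependent k (fun i => red (e i)) ∧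
      Submodule.span k (Set.range fun i => red (e i)) = Wt := by
  classical
  let b : Module.Basis (Fin (finrank k Wt)) k Wt := Module.finBasis k Wt
  choose e he using fun i => honto (b i) (b i).2
  have hindk : LinearIndependent k (fun i => red (e i)) := by
    have h1 : (fun i => red (e i)) = fun i => ((b i : Wt) : W) := funext he
    rw [h1]
    exact b.linearIndependent.map' Wt.subtype (Submodule.ker_subtype Wt)
  have hspank : Submodule.span k (Set.range fun i => red (e i)) = Wt := by
    have h1 : (fun i => red (e i)) = fun i => ((b i : Wt) : W) := funext he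
    rw [h1]
    have h2 : (Set.range fun i => ((b i : Wt) : W)) = Wt.subtype '' (Set.range b) := by
      ext x
      simp only [Set.mem_range, Set.mem_image]
      constructor
      · rintro ⟨i, rfl⟩
        exact ⟨b i, ⟨i, rfl⟩, rfl⟩
      · rintro ⟨_, ⟨i, rfl⟩, rfl⟩
        exact ⟨i, rfl⟩
    rw [h2, Submodule.span_image, b.span_eq, Submodule.map_top, Submodule.range_subtype]
  have hindL : LinearIndependent L (fun i => ((e i : Λ) : M)) :=
    linearIndependent_of_red L π Λ red hred e hindk
  have hle : Submodule.span L (Set.range fun i => ((e i : Λ) : M)) ≤ V := by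
    rw [Submodule.span_le]
    rintro _ ⟨i, rfl⟩
    exact hΛV _ (e i).2
  have hcard : finrank L (Submodule.span L (Set.range fun i => ((e i : Λ) : M)))
      = finrank k Wt := by
    rw [finrank_span_eq_card hindL, Fintype.card_fin]
  have hspanL : Submodule.span L (Set.range fun i => ((e i : Λ) : M)) = V := by
    apply Submodule.eq_of_le_of_finrank_le hle
    rw [hcard]
    exact hdim
  have hfin : finrank k Wt = finrank L V := by
    rw [← hcard, hspanL]
  refine ⟨e, hfin, hindL, hspanL, ?_, hindk, hspank⟩
  intro f
  exact mem_span_of_basis_of_red L π Λ red hπ hred V hΛV e hspanL.ge hindk f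

/-- **Lattice basis** (the conclusion of `exists_orthonormal_basis` without a target space):
if `Λ = N ∩ V` with `N` finitely generated and the scaling hypothesis holds, then `Λ` has an
`A`-basis which is an `L`-basis of `V` and whose reductions are `k`-linearly independent. -/
theorem exists_lattice_basis (hπ : Function.Surjective π)
    (hred : ∀ (a : A) (f : Λ), red (a • f) = π a • red f)
    (V : Submodule L M) [FiniteDimensional L V] (hΛV : ∀ f ∈ Λ, f ∈ V)
    (hscale : ∀ f ∈ V, f ≠ 0 → ∃ c : L, c ≠ 0 ∧ ∃ h : c • f ∈ Λ, red ⟨c • f, h⟩ ≠ 0)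
    (N : Submodule A M) (hN : N.FG) (hΛN : Λ ≤ N) (hNV : ∀ n ∈ N, n ∈ V → n ∈ Λ) :
    ∃ e : Fin (finrank L V) → Λ,
      LinearIndependent L (fun i => ((e i : Λ) : M)) ∧
      Submodule.span L (Set.range fun i => ((e i : Λ) : M)) = V ∧
      (∀ f : Λ, ∃ a : Fin (finrank L V) → A, f = ∑ i, a i • e i) ∧
      LinearIndependent k (fun i => red (e i)) := by
  classical
  -- the image of the reduction is a `k`-subspace
  let Wt : Submodule k W :=
    { carrier := Set.range red
      zero_mem' := ⟨0, map_zero red⟩
      add_mem' := by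
        rintro _ _ ⟨f, rfl⟩ ⟨g, rfl⟩
        exact ⟨f + g, map_add red f g⟩
      smul_mem' := by
        rintro c _ ⟨f, rfl⟩
        obtain ⟨a, rfl⟩ := hπ c
        exact ⟨a • f, hred a f⟩ }
  have hWt : ∀ w, w ∈ Wt ↔ ∃ f, red f = w := fun w => Iff.rfl
  -- it has dimension at most `dim V`
  have hrank : Module.rank k Wt ≤ (finrank L V : ℕ) := by
    apply rank_le
    intro s hs
    -- lift the elements of `s`
    have hlift : ∀ w : s, ∃ f : Λ, red f = ((w : Wt) : W) := fun w => (hWt _).mp (w : Wt).2
    choose f hf using hlift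
    have hindk : LinearIndependent k (fun w : s => red (f w)) := by
      have h1 : (fun w : s => red (f w)) = fun w : s => (((w : Wt)) : W) := funext hf
      rw [h1]
      exact hs.map' Wt.subtype (Submodule.ker_subtype Wt)
    have hindL := linearIndependent_of_red L π Λ red hred f hindk
    -- as a family in `V`
    have hindV : LinearIndependent L (fun w : s => (⟨((f w : Λ) : M), hΛV _ (f w).2⟩ : V)) := by
      apply LinearIndependent.of_comp V.subtype
      exact hindL
    have := hindV.fintype_card_le_finrank
    simpa using this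
  have hfinW : FiniteDimensional k Wt := by
    rw [FiniteDimensional, ← Module.rank_lt_aleph0_iff]
    exact lt_of_le_of_lt hrank Cardinal.natCast_lt_aleph0
  have hdim : finrank k Wt ≤ finrank L V := by
    have := Module.finrank_le_of_rank_le hrank
    simpa using this
  obtain ⟨n, e, he, hn, hindL, hspanL, hspanA, hindk, -⟩ :=
    exists_orthonormal_basis L π hπ V Λ hΛV red hred hscale N hN hΛN hNV Wt
      (fun f => ⟨f, rfl⟩) hdim
  subst hn
  refine ⟨fun i => ⟨e i, he i⟩, hindL, hspanL, ?_, hindk⟩
  intro f
  have hf : (f : M) ∈ Submodule.span A (Set.range e) := by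
    rw [hspanA]
    exact f.2
  obtain ⟨a, ha⟩ := (Submodule.mem_span_range_iff_exists_fun A).mp hf
  refine ⟨a, Subtype.ext ?_⟩
  rw [← ha]
  push_cast
  rfl

/-- **Dimension count**: finitely generated lattice + surjective reduction onto `Wt` implies
`dim_k Wt = dim_L V`. -/
theorem finrank_eq_of_fg_of_onto (hπ : Function.Surjective π)
    (hred : ∀ (a : A) (f : Λ), red (a • f) = π a • red f)
    (V : Submodule L M) [FiniteDimensional L V] (hΛV : ∀ f ∈ Λ, f ∈ V)
    (hscale : ∀ f ∈ V, f ≠ 0 → ∃ c : L, c ≠ 0 ∧ ∃ h : c • f ∈ Λ, red ⟨c • f, h⟩ ≠ 0)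
    (N : Submodule A M) (hN : N.FG) (hΛN : Λ ≤ N) (hNV : ∀ n ∈ N, n ∈ V → n ∈ Λ)
    (Wt : Submodule k W) [FiniteDimensional k Wt] (hredW : ∀ f, red f ∈ Wt)
    (honto : ∀ w ∈ Wt, ∃ f : Λ, red f = w) :
    finrank k Wt = finrank L V := by
  classical
  obtain ⟨e, -, -, -, hindk⟩ :=
    exists_lattice_basis L π Λ red hπ hred V hΛV hscale N hN hΛN hNV
  -- `dim V ≤ dim Wt`
  have h1 : finrank L V ≤ finrank k Wt := by
    have hindW : LinearIndependent k (fun i => (⟨red (e i), hredW _⟩ : Wt)) := by
      apply LinearIndependent.of_comp Wt.subtype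
      exact hindk
    have := hindW.fintype_card_le_finrank
    simpa using this
  exact (exists_orthonormal_basis_of_onto L π Λ red hπ hred V hΛV Wt honto h1).choose_spec.1

end Core2

end Fermat.Agent.S19.H315
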