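import Fermat.Agent.S19.H315.IntegralRR
import Fermat.Agent.S19.H315.OrthoBasis2
import Fermat.Agent.Lib.RR.Riemann

/-!
# Cell A3 / WP-W4 (helper315): integral Riemann–Roch lattices — assembly with Lib/RR

`G : GaussDatum A π F Fk` (see `IntegralRR.lean`), `[FF1 L F] [FF1 k Fk]` (shared library RR).

* `GaussDatum.degree_mapDomain` : `deg (r_* D) = deg D`.
* `GaussDatum.ell_eq_of_fg_of_onto` : if `L(E) ∩ O` is finitely generated and reduces ONTO
  `L(r_* E)` (this is what the two-chart Čech argument of the S18 cell gives for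
  `E = n (x)_∞`), then `ℓ(r_* E) = ℓ(E)`.
* `GaussDatum.genusR_eq` : … hence the two function fields have the SAME GENUS
  (as soon as `deg E` is large).
* `GaussDatum.exists_orthonormal_basis_of_genus` : **W4**.  If the genera agree, the lattice
  of `E'` is finitely generated, `E ≤ E'` and `ℓ(r_* E) = deg E + 1 - g` (e.g. `deg E` large),
  then `L(E) ∩ O` has an orthonormal basis reducing to a basis of `L(r_* E)`.
* `GaussDatum.exists_orthonormal_basis_of_base` : W4 from the base case alone.
-/

set_option autoImplicit false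

open AlgebraicCurve Module Fermat.Agent.Lib.RR

namespace Fermat.Agent.S19.H315

namespace GaussDatum

variable {L : Type*} [Field L] {A : ValuationSubring L} {k : Type*} [Field k] {π : A →+* k}
variable {F : Type*} [Field F] [Algebra L F] {Fk : Type*} [Field Fk] [Algebra k Fk]
variable (G : GaussDatum A π F Fk)

/-- The reduction of divisors preserves the degree (all places have degree one). -/
theorem degree_mapDomain [FF1 L F] [FF1 k Fk] (D : Divisor L F) :
    Divisor.degree (Finsupp.mapDomain G.r D) = Divisor.degree D := by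
  induction D using Finsupp.induction with
  | zero => simp
  | single_add P n D _ _ ih =>
    rw [Finsupp.mapDomain_add, map_add, map_add, ih, Finsupp.mapDomain_single,
      Divisor.degree_single, Divisor.degree_single, FF1.deg_eq_one (K := L) P,
      FF1.deg_eq_one (K := k) (G.r P)]

/-- Finitely generated lattice + surjective reduction ⇒ equal dimensions. -/
theorem ell_eq_of_fg_of_onto [FF1 L F] [FF1 k Fk] (hπ : Function.Surjective π)
    (E : Divisor L F) (N : Submodule A F) (hN : N.FG) (hNO : ∀ n ∈ N, n ∈ G.O)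
    (hΛN : G.lattice E ≤ N)
    (honto : ∀ g ∈ riemannRochSpace (Finsupp.mapDomain G.r E),
      ∃ f : G.lattice E, G.redLattice E f = g) :
    ell (Finsupp.mapDomain G.r E) = ell E := by
  refine finrank_eq_of_fg_of_onto L π (G.lattice E) (G.redLattice E) hπ (G.redLattice_smul E)
    (riemannRochSpace E) (fun f hf => hf.2) ?_ N hN hΛN (fun n hn hnV => ⟨hNO n hn, hnV⟩)
    (riemannRochSpace (Finsupp.mapDomain G.r E)) (G.red_mem_riemannRochSpace E) honto
  intro f hf hf0
  obtain ⟨c, hc, h, hred⟩ := G.exists_scale f hf0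
  exact ⟨c, hc, ⟨h, Submodule.smul_mem _ _ hf⟩, hred⟩

/-- **Equal genus.**  If for ONE divisor `E` on which Riemann's theorem is an equality on both
sides the lattice is finitely generated and reduces onto `L(r_* E)`, the genera agree. -/
theorem genusR_eq [FF1 L F] [FF1 k Fk] (hπ : Function.Surjective π)
    (E : Divisor L F) (N : Submodule A F) (hN : N.FG) (hNO : ∀ n ∈ N, n ∈ G.O)
    (hΛN : G.lattice E ≤ N)
    (honto : ∀ g ∈ riemannRochSpace (Finsupp.mapDomain G.r E),
      ∃ f : G.lattice E, G.redLattice E f = g)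
    (hL : (ell E : ℤ) = Divisor.degree E + 1 - (genusR L F : ℤ))
    (hk : (ell (Finsupp.mapDomain G.r E) : ℤ)
      = Divisor.degree (Finsupp.mapDomain G.r E) + 1 - (genusR k Fk : ℤ)) :
    genusR k Fk = genusR L F := by
  have h1 := G.ell_eq_of_fg_of_onto hπ E N hN hNO hΛN honto
  have h2 := G.degree_mapDomain E
  rw [h1, h2] at hk
  have : (genusR k Fk : ℤ) = (genusR L F : ℤ) := by linarith
  exact_mod_cast this

/-- **W4.**  Equal genus + finitely generated ambient lattice ⇒ orthonormal basis of
`L(E) ∩ O` for every `E ≤ E'` on which Riemann's theorem is an equality on the special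
fibre. -/
theorem exists_orthonormal_basis_of_genus [FF1 L F] [FF1 k Fk] (hπ : Function.Surjective π)
    (hgenus : genusR k Fk = genusR L F)
    {E E' : Divisor L F} (hE : E ≤ E') (hfg : (G.lattice E').FG)
    (hk : (ell (Finsupp.mapDomain G.r E) : ℤ)
      = Divisor.degree (Finsupp.mapDomain G.r E) + 1 - (genusR k Fk : ℤ)) :
    ∃ (n : ℕ) (e : Fin n → F) (he : ∀ i, e i ∈ G.lattice E),
      n = finrank L (riemannRochSpace E) ∧ LinearIndependent L e ∧
      Submodule.span L (Set.range e) = riemannRochSpace E ∧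
      Submodule.span A (Set.range e) = G.lattice E ∧
      LinearIndependent k (fun i => G.redLattice E ⟨e i, he i⟩) ∧
      Submodule.span k (Set.range fun i => G.redLattice E ⟨e i, he i⟩)
        = riemannRochSpace (Finsupp.mapDomain G.r E) := by
  apply G.exists_orthonormal_basis_of_le hπ hE hfg
  have h1 := riemann_inequality (K := L) (F := F) E
  have h2 := G.degree_mapDomain E
  rw [h2, hgenus] at hk
  have h3 : (ell (Finsupp.mapDomain G.r E) : ℤ) ≤ (ell E : ℤ) := by linarith
  have h4 : ell (Finsupp.mapDomain G.r E) ≤ ell E := by exact_mod_cast h3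
  exact h4

/-- **W4 from the base case.**  Suppose that for all large `n` the lattice of `n • D∞` is
finitely generated and reduces onto `L(r_* (n • D∞))`, with `deg D∞ > 0`.  Then the genera
agree, and there is `c` such that every `E` with `deg E ≥ c` and `E ≤ n • D∞` for some `n ≥ n₀`
has an orthonormal basis. -/
theorem exists_orthonormal_basis_of_base [FF1 L F] [FF1 k Fk] (hπ : Function.Surjective π)
    (Dinf : Divisor L F) (hdeg : 0 < Divisor.degree Dinf) (n₀ : ℕ)
    (hfg : ∀ n : ℕ, n₀ ≤ n → (G.lattice (n • Dinf)).FG)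
    (honto : ∀ n : ℕ, n₀ ≤ n → ∀ g ∈ riemannRochSpace (Finsupp.mapDomain G.r (n • Dinf)),
      ∃ f : G.lattice (n • Dinf), G.redLattice (n • Dinf) f = g) :
    genusR k Fk = genusR L F ∧
    ∃ c : ℤ, ∀ (E : Divisor L F), c ≤ Divisor.degree E → ∀ n : ℕ, n₀ ≤ n → E ≤ n • Dinf →
      ∃ (m : ℕ) (e : Fin m → F) (he : ∀ i, e i ∈ G.lattice E),
        m = finrank L (riemannRochSpace E) ∧ LinearIndependent L e ∧
        Submodule.span L (Set.range e) = riemannRochSpace E ∧
        Submodule.span A (Set.range e) = G.lattice E ∧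
        LinearIndependent k (fun i => G.redLattice E ⟨e i, he i⟩) ∧
        Submodule.span k (Set.range fun i => G.redLattice E ⟨e i, he i⟩)
          = riemannRochSpace (Finsupp.mapDomain G.r E) := by
  obtain ⟨cL, hcL⟩ := exists_degree_bound (K := L) (F := F)
  obtain ⟨ck, hck⟩ := exists_degree_bound (K := k) (F := Fk)
  -- a large multiple of `D∞`
  obtain ⟨n, hn0, hnL, hnk⟩ : ∃ n : ℕ, n₀ ≤ n ∧ cL ≤ Divisor.degree (n • Dinf) ∧
      ck ≤ Divisor.degree (n • Dinf) := by
    refine ⟨n₀ + (max cL ck).toNat, Nat.le_add_right _ _, ?_, ?_⟩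
    all_goals
      rw [map_nsmul, nsmul_eq_mul]
      have h1 : max cL ck ≤ ((max cL ck).toNat : ℤ) := Int.self_le_toNat _
      have h2 : (((max cL ck).toNat : ℕ) : ℤ) ≤ ((n₀ + (max cL ck).toNat : ℕ) : ℤ) := by
        exact_mod_cast Nat.le_add_left _ _
      have h3 : ((n₀ + (max cL ck).toNat : ℕ) : ℤ)
          ≤ ((n₀ + (max cL ck).toNat : ℕ) : ℤ) * Divisor.degree Dinf := by
        have h4 : (0 : ℤ) ≤ ((n₀ + (max cL ck).toNat : ℕ) : ℤ) := by positivity
        nlinarith
      have h5 := le_max_left cL ck
      have h6 := le_max_right cL ck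
      linarith
  have hgenus : genusR k Fk = genusR L F := by
    refine G.genusR_eq hπ (n • Dinf) (G.lattice (n • Dinf)) (hfg n hn0) (fun _ h => h.1) le_rfl
      (honto n hn0) (hcL _ hnL) (hck _ ?_)
    rw [G.degree_mapDomain]
    exact hnk
  refine ⟨hgenus, ck, fun E hE n hn hEn => ?_⟩
  refine G.exists_orthonormal_basis_of_genus hπ hgenus hEn (hfg n hn) (hck _ ?_)
  rw [G.degree_mapDomain]
  exact hE

end GaussDatum

end Fermat.Agent.S19.H315
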