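import Fermat.Agent.S19.H315.LevelField
import Fermat.Agent.Lib.X0Deg.Gen
import Fermat.Agent.Lib.X0Deg.Alpha
import Fermat.Agent.S28.H208.RootList
import Fermat.Agent.S28.H807.Analytic

/-!
# Cell A3 (S19), node LEVEL, layer L2 (helper315): `ℚ̄(X₀(Np)) / ℚ̄(X₀(N))` is Kummer-closed

For a prime `p ∤ N` the extension `F̄_{Np} / F̄_N` (degeneracy map `heckeAlphaBar ℚ̄ N p`) carries
a `TwistDatum` (file `LevelField.lean`):

* `T = ℚ̄((t))`, `V = ` (inclusion into `ℚ̄((q))`) followed by `q ↦ t^p`;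
* `y = j(q^{Np})`, `P = Φ_p(X, j(q^N))` with the root list of `Fermat.Agent.S28.H208`:
  `V(P) = (X - j(t^{Np²})) ∏_{b<p} (X - j(ζ^b t^N))`;
* the twists `t ↦ ζ^c t` fix `V(F̄_{Np}) ⊆ ℚ̄((t^p))` and permute the `j(ζ^b t^N)` transitively
  (`p ∤ N`).

Consequences: `eq_bot_or_eq_top_modular` (no proper intermediate field) and
`kummer_closed_modular` : `g ∈ F̄_{Np}`, `g^n ∈ F̄_N`, `n > 0`  ⟹  `g ∈ F̄_N`.
-/

set_option autoImplicit false
set_option linter.style.haveILetI false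
set_option linter.unusedSectionVars false

noncomputable section

namespace Fermat.Agent.S19.H315

open ModularCurve AlgebraicCurve IntermediateField Polynomial
open Fermat.Agent.S24 Fermat.Agent.Lib.X0Deg Fermat.Agent.S28 Fermat.Agent.S28.H208

/-- `j(q^d)` over `ℚ̄` in the `jqModC` form. -/
theorem jBd_eq_qExpand (d : ℕ) [NeZero d] : jBd d = qExpand Kbar d (jqModC Kbar) := by
  unfold jBd coeffEmb
  rw [coeffMap_qExpand_comm, ← jqModC_rat, coeffMap_jqModC]

variable (N p : ℕ) [NeZero N] [NeZero p]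

/-- The embedding `F̄_{Np} ⊆ ℚ̄((q)) → ℚ̄((t))`, `q ↦ t^p`. -/
def levelV : FF (N * p) →+* LaurentSeries Kbar :=
  (qExpand Kbar p).comp ((modularFunctionFieldBar (N * p)).val : FF (N * p) →+* LaurentSeries Kbar)

theorem levelV_apply (x : FF (N * p)) :
    levelV N p x = qExpand Kbar p (x : LaurentSeries Kbar) := rfl

/-- The twisted roots `j(ζ^b t^N)`. -/
def levelRoot (ζ : Kbar) (hζ : ζ ≠ 0) (b : Fin p) : LaurentSeries Kbar :=
  qExpand Kbar N (tw (ζ ^ (b : ℕ)) (pow_ne_zero _ hζ) (jqModC Kbar))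

theorem levelRoot_eq (ζ : Kbar) (hζ : ζ ≠ 0) (b : Fin p) :
    levelRoot N p ζ hζ b = qExpand Kbar N (rootAt (p := p) ζ hζ (some b)) := rfl

theorem levelRoot_coeff (ζ : Kbar) (hζ : ζ ≠ 0) (b : Fin p) :
    (levelRoot N p ζ hζ b).coeff (-(N : ℤ)) = (ζ ^ (b : ℕ))⁻¹ := by
  have h := qExpand_coeff_mul (R := Kbar) N (rootAt (p := p) ζ hζ (some b)) (-1)
  rw [rootAt_some_coeff_neg_one, mul_neg, mul_one] at h
  exact h

theorem levelV_coeff (hpN : ¬ p ∣ N) (x : FF (N * p)) :
    (levelV N p x).coeff (-(N : ℤ)) = 0 := by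
  rw [levelV_apply]
  refine qExpand_coeff_of_not_dvd p _ ?_
  intro h
  rw [dvd_neg] at h
  exact hpN (by exact_mod_cast h)

/-- Twisting by `ζ^c` moves `j(ζ^b t^N)` to `j(ζ^{b'} t^N)` when `c N + b ≡ b'`. -/
theorem tw_levelRoot (ζ : Kbar) (hζ : ζ ≠ 0) (c : ℕ) (b b' : Fin p)
    (h : ζ ^ (c * N + (b : ℕ)) = ζ ^ (b' : ℕ)) :
    tw (ζ ^ c) (pow_ne_zero _ hζ) (levelRoot N p ζ hζ b) = levelRoot N p ζ hζ b' := by
  ext n
  rw [tw_coeff]
  by_cases hn : (N : ℤ) ∣ n
  · obtain ⟨k, rfl⟩ := hn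
    rw [levelRoot, levelRoot, qExpand_coeff_mul, qExpand_coeff_mul, tw_coeff, tw_coeff,
      ← mul_assoc]
    congr 1
    rw [← h, zpow_mul, zpow_natCast, ← mul_zpow, ← pow_mul, ← pow_add]
  · rw [levelRoot, levelRoot, qExpand_coeff_of_not_dvd N _ hn, qExpand_coeff_of_not_dvd N _ hn,
      mul_zero]

/-- Solvability of `c N + b ≡ b' (mod p)`. -/
theorem exists_twist_exponent (hp : p.Prime) (hpN : ¬ p ∣ N) (b b' : ℕ) :
    ∃ c : ℕ, c * N + b ≡ b' [MOD p] := by
  haveI : Fact p.Prime := ⟨hp⟩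
  have hN : (N : ZMod p) ≠ 0 := by
    intro h
    exact hpN ((ZMod.natCast_eq_zero_iff N p).mp h)
  refine ⟨(((b' : ZMod p) - (b : ZMod p)) * (N : ZMod p)⁻¹).val, ?_⟩
  rw [← ZMod.natCast_eq_natCast_iff]
  push_cast
  rw [ZMod.natCast_val, ZMod.cast_id', id_eq, mul_assoc, inv_mul_cancel₀ hN, mul_one]
  ring

section Abstract

variable {K Ω : Type*} [Field K] [Field Ω] [Algebra K Ω]

/-- If `B = A ⊔ K(y)` then `y` generates `B` over `A`. -/
theorem adjoin_eq_top_of_sup {A B : IntermediateField K Ω} (h : A ≤ B) (y : B)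
    (hB : B ≤ A ⊔ IntermediateField.adjoin K {(y : Ω)}) :
    letI := algebraAlong (IntermediateField.inclusion h)
    IntermediateField.adjoin A {y} = ⊤ := by
  letI := algebraAlong (IntermediateField.inclusion h)
  rw [eq_top_iff]
  have key : ∀ x : Ω, x ∈ IntermediateField.adjoin K ((A : Set Ω) ∪ {(y : Ω)}) →
      ∃ hx : x ∈ B, (⟨x, hx⟩ : B) ∈ IntermediateField.adjoin A {y} := by
    intro x hx'
    induction hx' using IntermediateField.adjoin_induction with
    | mem x hx =>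
      rcases hx with hx | hx
      · exact ⟨h hx, (IntermediateField.adjoin A {y}).algebraMap_mem ⟨x, hx⟩⟩
      · rw [Set.mem_singleton_iff] at hx
        subst hx
        exact ⟨y.2, IntermediateField.mem_adjoin_simple_self _ _⟩
    | algebraMap c =>
      refine ⟨B.algebraMap_mem c, ?_⟩
      exact (IntermediateField.adjoin A {y}).algebraMap_mem (algebraMap K A c)
    | add a b _ _ ha hb =>
      obtain ⟨ha1, ha2⟩ := ha
      obtain ⟨hb1, hb2⟩ := hb
      exact ⟨B.add_mem ha1 hb1, (IntermediateField.adjoin A {y}).add_mem ha2 hb2⟩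
    | inv a _ ha =>
      obtain ⟨ha1, ha2⟩ := ha
      exact ⟨B.inv_mem ha1, (IntermediateField.adjoin A {y}).inv_mem ha2⟩
    | mul a b _ _ ha hb =>
      obtain ⟨ha1, ha2⟩ := ha
      obtain ⟨hb1, hb2⟩ := hb
      exact ⟨B.mul_mem ha1 hb1, (IntermediateField.adjoin A {y}).mul_mem ha2 hb2⟩
  intro x _
  have hx0 : (x : Ω) ∈ IntermediateField.adjoin K ((A : Set Ω) ∪ {(y : Ω)}) := by
    rw [IntermediateField.adjoin_union, IntermediateField.adjoin_self]
    exact hB x.2
  obtain ⟨_, hx⟩ := key x hx0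
  exact hx

end Abstract

/-- The generator `j(q^{Np})` generates `F̄_{Np}` over `F̄_N`. -/
theorem adjoin_jMF_eq_top :
    letI := algebraAlong (heckeAlphaBar Kbar N p)
    IntermediateField.adjoin (FF N) {jMF (N * p)} = ⊤ :=
  adjoin_eq_top_of_sup (modularFunctionFieldBar_mono (dvd_mul_right N p)) (jMF (N * p))
    (modularFunctionFieldBar_eq_sup (N * p) (dvd_mul_right N p)).le

/-- **The twist datum of `F̄_{Np} / F̄_N`.** -/
def levelTwistDatum (hp : p.Prime) (hpN : ¬ p ∣ N) (D : ModPolyData p) (ζ : Kbar)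
    (hζ : IsPrimitiveRoot ζ p) :
    letI := algebraAlong (heckeAlphaBar Kbar N p)
    TwistDatum (FF N) (FF (N * p)) (LaurentSeries Kbar) :=
  letI := algebraAlong (heckeAlphaBar Kbar N p)
  have hζ0 : ζ ≠ 0 := hζ.ne_zero (NeZero.ne p)
  { V := levelV N p
    y := jMF (N * p)
    gen := adjoin_jMF_eq_top N p
    P := D.Φ.map (evZ (jMF N))
    B := Fin p
    finB := inferInstance
    r := levelRoot N p ζ hζ0
    map_P := by
      have hval : (levelV N p).comp (algebraMap (FF N) (FF (N * p))) (jMF N)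
          = qExpand Kbar (N * p) (jqModC Kbar) := by
        show qExpand Kbar p (jBd N) = _
        rw [qExpand_jBd, jBd_eq_qExpand]
      have hnone : qExpand Kbar N (rootAt (p := p) ζ hζ0 none) = levelV N p (jMF (N * p)) := by
        show qExpand Kbar N (qExpand Kbar (p * p) (jqModC Kbar)) = qExpand Kbar p (jBd (N * p))
        rw [jBd_eq_qExpand, qExpand_qExpand, qExpand_qExpand]
        exact qExpand_congr (by ring) _
      rw [map_map_evZ, hval, map_eq_prod_rootAt_qExpand D hp.one_lt ζ hζ N, Fintype.prod_option,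
        hnone]
      rfl
    r_inj := by
      intro b b' h
      have h1 : rootAt (p := p) ζ hζ0 (some b) = rootAt ζ hζ0 (some b') :=
        qExpand_injective (R := Kbar) N h
      have h2 := rootAt_injective hp.one_lt ζ hζ h1
      exact Option.some_injective _ h2
    r_not_mem := by
      intro b x h
      have h1 := congrArg (fun f : LaurentSeries Kbar => f.coeff (-(N : ℤ))) h
      simp only [levelV_coeff N p hpN, levelRoot_coeff] at h1
      exact inv_ne_zero (pow_ne_zero _ hζ0) h1.symm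
    trans := by
      intro b b'
      obtain ⟨c, hc⟩ := exists_twist_exponent N p hp hpN (b : ℕ) (b' : ℕ)
      refine ⟨tw (ζ ^ c) (pow_ne_zero _ hζ0), fun x => ?_, ?_⟩
      · rw [levelV_apply]
        refine tw_qExpand_of_pow_eq_one _ _ p ?_ _
        rw [← pow_mul, mul_comm, pow_mul, hζ.pow_eq_one, one_pow]
      · refine tw_levelRoot N p ζ hζ0 c b b' ?_
        rw [pow_eq_pow_mod _ hζ.pow_eq_one, pow_eq_pow_mod (b' : ℕ) hζ.pow_eq_one]
        exact congrArg (ζ ^ ·) hc }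

/-- **No proper intermediate field** between `F̄_N` and `F̄_{Np}` (`p ∤ N` prime). -/
theorem eq_bot_or_eq_top_modular (hp : p.Prime) (hpN : ¬ p ∣ N) :
    letI := algebraAlong (heckeAlphaBar Kbar N p)
    ∀ E : IntermediateField (FF N) (FF (N * p)), E = ⊥ ∨ E = ⊤ := by
  letI := algebraAlong (heckeAlphaBar Kbar N p)
  haveI : FiniteDimensional (FF N) (FF (N * p)) := finiteAlong_heckeAlphaBar N p
  obtain ⟨D⟩ := Fermat.Agent.S28.H807.nonempty_modPolyData p hp
  obtain ⟨ζ, hζ⟩ := HasEnoughRootsOfUnity.exists_primitiveRoot Kbar p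
  exact (levelTwistDatum N p hp hpN D ζ hζ).eq_bot_or_eq_top

/-- **Kummer-closedness** of `F̄_{Np} / F̄_N` (`p ∤ N` prime): a function of level `Np` with a
power of level `N` has level `N`. -/
theorem kummer_closed_modular (hp : p.Prime) (hpN : ¬ p ∣ N) {n : ℕ} (hn : 0 < n)
    (g : FF (N * p)) (a : FF N) (hg : g ^ n = heckeAlphaBar Kbar N p a) :
    g ∈ (heckeAlphaBar Kbar N p).toRingHom.range := by
  letI := algebraAlong (heckeAlphaBar Kbar N p)
  haveI : FiniteDimensional (FF N) (FF (N * p)) := finiteAlong_heckeAlphaBar N p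
  obtain ⟨D⟩ := Fermat.Agent.S28.H807.nonempty_modPolyData p hp
  obtain ⟨ζ, hζ⟩ := HasEnoughRootsOfUnity.exists_primitiveRoot Kbar p
  haveI : NeZero n := ⟨hn.ne'⟩
  obtain ⟨η, hη⟩ := HasEnoughRootsOfUnity.exists_primitiveRoot Kbar n
  have hη' : IsPrimitiveRoot (algebraMap Kbar (FF N) η) n :=
    hη.map_of_injective (algebraMap Kbar (FF N)).injective
  exact (levelTwistDatum N p hp hpN D ζ hζ).mem_range_of_pow_mem hn hg hη'

end Fermat.Agent.S19.H315

end
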