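import Fermat.Agent.Lib.RR.Basic
import Fermat.Agent.S37.H818.HeckeComm

/-!
# Cell A3 (S19), node LEVEL, layer L3 (helper315): the conorm is injective on torsion when the
extension is Kummer-closed

Abstract function fields (Prelude language).  For `F ⊆ F'` finite with the fundamental identity:

* `exists_place_above` : every place of `F` is the restriction of a place of `F'`;
* `isPrincipal_of_pullback` : if `n D = div f` (`n > 0`), `π^* D = div g`, functions on `F'`
  without zeros and poles are constant, and `F'/F` is Kummer-closed for the exponent `n`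
  (`g ^ n ∈ F → g ∈ F`), then `D` is principal;
* `pullbackPic0Along_injOn_torsion` : the same on `Pic⁰` for the map
  `Fermat.Agent.S37.H818.pullbackPic0Along`.
-/

set_option autoImplicit false
set_option linter.style.haveILetI false

noncomputable section

namespace Fermat.Agent.S19.H315

open AlgebraicCurve Fermat.Agent.Lib.RR

section Alg

variable {K F F' : Type*} [Field K] [Field F] [Field F']
  [Algebra K F] [Algebra K F'] [Algebra F F'] [IsScalarTower K F F']
  [Algebra.IsIntegral F F'] [HasPrincipalDivisors K F']

/-- Every place of `F` lies below a place of `F'`. -/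
theorem exists_place_above [FundamentalIdentity K F F'] (hfin : Module.finrank F F' ≠ 0)
    (v : Place K F) (hv : v.deg ≠ 0) : ∃ w : Place K F', w.restrict F = v := by
  by_contra hno
  push Not at hno
  have hempty : v.fiber F' = ∅ := by
    rw [Finset.eq_empty_iff_forall_notMem]
    intro w hw
    exact hno w (Place.mem_fiber.mp hw)
  have h := FundamentalIdentity.sum_ramificationIndex_mul_deg (K := K) (F := F) (F' := F') v
  rw [hempty, Finset.sum_empty] at h
  have h2 : (Module.finrank F F' : ℤ) * (v.deg : ℤ) ≠ 0 :=
    mul_ne_zero (by exact_mod_cast hfin) (by exact_mod_cast hv)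
  exact h2 h.symm

omit [HasPrincipalDivisors K F'] in
/-- A function without zeros and poles is a nonzero constant. -/
theorem exists_const_of_ord_eq_zero [FF1 K F'] {u : F'} (hu : ∀ w : Place K F', w.ord u = 0) :
    ∃ c : K, algebraMap K F' c = u := by
  have hmem : u ∈ riemannRochSpace (0 : Divisor K F') := by
    rw [mem_L_iff]
    intro w
    right
    simp [hu w]
  rw [L_zero] at hmem
  obtain ⟨c, hc⟩ := hmem
  exact ⟨c, hc⟩

/-- **Divisor level.** -/
theorem isPrincipal_of_pullback [FF1 K F']
    (hsurj : ∀ v : Place K F, ∃ w : Place K F', w.restrict F = v) {n : ℕ}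
    (hkum : ∀ (g : F') (a : F), g ^ n = algebraMap F F' a → g ∈ (algebraMap F F').range)
    {D : Divisor K F} (hnD : (n • D).IsPrincipal)
    (hpD : (Divisor.pullback F' D).IsPrincipal) : D.IsPrincipal := by
  obtain ⟨f, hf0, hf⟩ := hnD
  obtain ⟨g, hg0, hg⟩ := hpD
  have hf0' : algebraMap F F' f ≠ 0 := by simpa using hf0
  -- `g ^ n / f` has trivial divisor
  have hu : ∀ w : Place K F', w.ord (g ^ n * (algebraMap F F' f)⁻¹) = 0 := by
    intro w
    rw [w.ord_mul (pow_ne_zero n hg0) (inv_ne_zero hf0'), w.ord_inv]
    have h1 : w.ord (g ^ n) = n * w.ord g := by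
      have := w.ord_zpow g (n : ℤ)
      rwa [zpow_natCast] at this
    have h2 : Divisor.pullback F' (n • D) w = w.ord (algebraMap F F' f) :=
      Divisor.pullback_apply_eq_ord hf w
    rw [map_nsmul, Finsupp.smul_apply, hg w, nsmul_eq_mul] at h2
    rw [h1, h2]
    ring
  obtain ⟨c, hc⟩ := exists_const_of_ord_eq_zero hu
  have hgn : g ^ n = algebraMap F F' (algebraMap K F c * f) := by
    rw [map_mul, ← IsScalarTower.algebraMap_apply, hc, mul_assoc, inv_mul_cancel₀ hf0', mul_one]
  obtain ⟨g₀, hg₀⟩ := hkum g _ hgn
  have hg₀0 : g₀ ≠ 0 := by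
    rintro rfl
    rw [map_zero] at hg₀
    exact hg0 hg₀.symm
  refine ⟨g₀, hg₀0, fun v => ?_⟩
  obtain ⟨w, rfl⟩ := hsurj v
  have h1 := hg w
  rw [Divisor.pullback_apply, ← hg₀, w.ord_restrict] at h1
  have he : (w.ramificationIndex F : ℤ) ≠ 0 := by
    exact_mod_cast (w.ramificationIndex_pos (F := F)).ne'
  exact mul_left_cancel₀ he h1

end Alg

section Along

variable {K F F' : Type*} [Field K] [Field F] [Field F'] [Algebra K F] [Algebra K F']

/-- **The conorm is injective on `n`-torsion** for a finite extension of function fields (all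
places of degree one) which is Kummer-closed for the exponent `n`. -/
theorem pullbackPic0Along_eq_zero [FF1 K F] [FF1 K F'] (i : F →ₐ[K] F')
    (hi : i.toRingHom.IsIntegral) (hFI : FundamentalIdentityAlong K i hi)
    (hfin : finrankAlong K i ≠ 0) {n : ℕ}
    (hkum : ∀ (g : F') (a : F), g ^ n = i a → g ∈ i.toRingHom.range)
    {x : Pic0 K F} (hx : n • x = 0)
    (hpx : Fermat.Agent.S37.H818.pullbackPic0Along i hi hFI x = 0) : x = 0 := by
  letI := algebraAlong i
  haveI := isScalarTower_along i
  haveI := isIntegral_along i hi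
  haveI : FundamentalIdentity K F F' := hFI
  obtain ⟨D, rfl⟩ := Pic0.mk_surjective x
  have hsurj : ∀ v : Place K F, ∃ w : Place K F', w.restrict F = v := fun v =>
    exists_place_above hfin v (by rw [deg_eq_one v]; exact one_ne_zero)
  have hnD : (n • (D : Divisor K F)).IsPrincipal := by
    have h1 : Pic0.mk (n • D) = 0 := by
      rw [← hx]
      exact QuotientAddGroup.mk_nsmul _ D n
    have h2 := (QuotientAddGroup.eq_zero_iff (n • D)).mp h1
    rw [AddSubgroup.mem_addSubgroupOf] at h2
    exact h2
  have hpD : (Divisor.pullback F' (D : Divisor K F)).IsPrincipal := by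
    rw [Fermat.Agent.S37.H818.pullbackPic0Along_mk] at hpx
    have h2 := (QuotientAddGroup.eq_zero_iff _).mp hpx
    rw [AddSubgroup.mem_addSubgroupOf] at h2
    exact h2
  have hD := isPrincipal_of_pullback hsurj hkum hnD hpD
  refine (QuotientAddGroup.eq_zero_iff D).mpr ?_
  rw [AddSubgroup.mem_addSubgroupOf]
  exact hD

end Along

end Fermat.Agent.S19.H315

end
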