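import Fermat.Agent.S19.Spec
import Fermat.Agent.S19.H315.LevelModular
import Fermat.Agent.S19.H315.LevelPic
import Fermat.Agent.S37.H818.Modular
import Fermat.Agent.Lib.HI.H864.Modular
import Fermat.Agent.Lib.RR.H864.FF1Modular

/-!
# Cell A3 (S19), node LEVEL (helper315): `LevelStatement` is PROVED

`levelStatement : Fermat.Agent.S19.LevelStatement`.

For `ℓ ≥ 5`, or `ℓ = 3`, `2 ∣ N`, or `ℓ = 2`, `3 ∣ N` take `M = N`, `j = id`.  Otherwise
`M = N p` with `p = 2` (`ℓ = 3`) resp. `p = 3` (`ℓ = 2`) and `j` = the conorm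
`π^* : J₀(N) → J₀(Np)` (pullback of divisor classes along `F̄_N ⊆ F̄_{Np}`), which is

* Galois equivariant (`Fermat.Agent.S37.H818.pullbackPic0Along_galois`), and
* injective on torsion (`conorm_eq_zero`): if `n x = 0` and `π^* x = 0`, write `n D = div f`,
  `π^* D = div g`; then `g^n = c f`, so `g ∈ F̄_N` because `F̄_{Np}/F̄_N` is Kummer-closed
  (`kummer_closed_modular`: no proper intermediate field and not normal, from the root list of
  the modular polynomial `Φ_p` over `ℚ̄((q^{1/p}))`), and `D = div g`.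
-/

set_option autoImplicit false
set_option linter.style.haveILetI false
set_option linter.unusedSectionVars false

noncomputable section

namespace Fermat.Agent.S19.H315

open ModularCurve AlgebraicCurve
open Fermat.Agent.S24

section Conorm

variable (N p : ℕ) [NeZero N] [NeZero p]

/-- The conorm `π^* : J₀(N) → J₀(N p)`. -/
def conorm : JZero N →+ JZero (N * p) :=
  haveI := Fermat.Agent.Lib.HI.H864.hasPrincipalDivisors_FF (N * p)
  Fermat.Agent.S37.H818.pullbackPic0Along (heckeAlphaBar Kbar N p)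
    (Fermat.Agent.Lib.HI.H864.heckeAlphaBarIntegral N p)
    (Fermat.Agent.Lib.HI.H864.fundamentalIdentityAlong_alpha N p _)

/-- The conorm is Galois equivariant. -/
theorem conorm_galois (σ : GalQ) (x : JZero N) : conorm N p (σ • x) = σ • conorm N p x := by
  haveI := Fermat.Agent.Lib.HI.H864.hasPrincipalDivisors_FF (N * p)
  exact Fermat.Agent.S37.H818.pullbackPic0Along_galois
    (Fermat.Agent.Lib.HI.H864.heckeAlphaBarIntegral N p)
    (Fermat.Agent.Lib.HI.H864.fundamentalIdentityAlong_alpha N p _) σ x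

/-- **The conorm is injective on torsion** (`p ∤ N` prime). -/
theorem conorm_eq_zero (hp : p.Prime) (hpN : ¬ p ∣ N) {n : ℕ} (hn : 0 < n) {x : JZero N}
    (hx : n • x = 0) (hpx : conorm N p x = 0) : x = 0 := by
  haveI := Fermat.Agent.Lib.HI.H864.hasPrincipalDivisors_FF (N * p)
  haveI := Fermat.Agent.Lib.RR.H864.ff1_modularFunctionFieldBar N
  haveI := Fermat.Agent.Lib.RR.H864.ff1_modularFunctionFieldBar (N * p)
  exact pullbackPic0Along_eq_zero (heckeAlphaBar Kbar N p)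
    (Fermat.Agent.Lib.HI.H864.heckeAlphaBarIntegral N p)
    (Fermat.Agent.Lib.HI.H864.fundamentalIdentityAlong_alpha N p _)
    (Fermat.Agent.Lib.X0Deg.finrankAlong_heckeAlphaBar_pos N p).ne'
    (fun g a hg => kummer_closed_modular N p hp hpN hn g a hg) hx hpx

/-- The conorm on `ℓ^k`-torsion. -/
def torsConorm (ℓ k : ℕ) : Tors N ℓ k →+ Tors (N * p) ℓ k where
  toFun x := ⟨conorm N p (x : JZero N), by
    have h := x.2
    rw [Submodule.mem_torsionBy_iff] at h ⊢
    rw [← map_zsmul, h, map_zero]⟩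
  map_zero' := Subtype.ext (map_zero (conorm N p))
  map_add' x y := Subtype.ext (map_add (conorm N p) (x : JZero N) (y : JZero N))

@[simp]
theorem coe_torsConorm (ℓ k : ℕ) (x : Tors N ℓ k) :
    ((torsConorm N p ℓ k x : Tors (N * p) ℓ k) : JZero (N * p)) = conorm N p (x : JZero N) :=
  rfl

theorem torsConorm_injective (hp : p.Prime) (hpN : ¬ p ∣ N) (ℓ k : ℕ) (hℓ : 0 < ℓ) :
    Function.Injective (torsConorm N p ℓ k) := by
  rw [injective_iff_map_eq_zero]
  intro x hx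
  have h1 : conorm N p (x : JZero N) = 0 := by
    rw [← coe_torsConorm, hx]
    rfl
  have h2 : (ℓ ^ k) • (x : JZero N) = 0 := by
    have h := x.2
    rw [Submodule.mem_torsionBy_iff] at h
    have h3 : ((ℓ ^ k : ℕ) : ℤ) • (x : JZero N) = 0 := by
      push_cast
      exact h
    rwa [natCast_zsmul] at h3
  exact Subtype.ext (conorm_eq_zero N p hp hpN (pow_pos hℓ k) h2 h1)

theorem torsConorm_galois (ℓ k : ℕ) (σ : GalQ) (x : Tors N ℓ k) :
    torsConorm N p ℓ k (torsAct N ℓ k σ x) = torsAct (N * p) ℓ k σ (torsConorm N p ℓ k x) :=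
  Subtype.ext (conorm_galois N p σ (x : JZero N))

end Conorm

/-- The trivial case of LEVEL: the level is already good. -/
theorem level_of_good (N : ℕ) [NeZero N] (ℓ : ℕ) (hℓN : ¬ ℓ ∣ N) (hg : GoodLevel N ℓ) (k : ℕ) :
    ∃ (M : ℕ) (_ : NeZero M) (k' : ℕ), ¬ ℓ ∣ M ∧ GoodLevel M ℓ ∧
      ∃ j : Tors N ℓ k →+ Tors M ℓ k', Function.Injective j ∧
        ∀ (σ : GalQ) (x : Tors N ℓ k), j (torsAct N ℓ k σ x) = torsAct M ℓ k' σ (j x) :=
  ⟨N, inferInstance, k, hℓN, hg, AddMonoidHom.id _, Function.injective_id, fun _ _ => rfl⟩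

/-- The nontrivial case of LEVEL: raise the level by an auxiliary prime `p ∤ N`. -/
theorem level_of_raise (N : ℕ) [NeZero N] (ℓ : ℕ) (hℓ : ℓ.Prime) (hℓN : ¬ ℓ ∣ N) (p : ℕ)
    (hp : p.Prime) (hpN : ¬ p ∣ N) (hℓp : ℓ ≠ p) (hg : GoodLevel (N * p) ℓ) (k : ℕ) :
    ∃ (M : ℕ) (_ : NeZero M) (k' : ℕ), ¬ ℓ ∣ M ∧ GoodLevel M ℓ ∧
      ∃ j : Tors N ℓ k →+ Tors M ℓ k', Function.Injective j ∧
        ∀ (σ : GalQ) (x : Tors N ℓ k), j (torsAct N ℓ k σ x) = torsAct M ℓ k' σ (j x) := by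
  haveI : NeZero p := ⟨hp.ne_zero⟩
  refine ⟨N * p, inferInstance, k, ?_, hg, torsConorm N p ℓ k,
    torsConorm_injective N p hp hpN ℓ k hℓ.pos, torsConorm_galois N p ℓ k⟩
  intro h
  rcases (Nat.Prime.dvd_mul hℓ).mp h with h1 | h1
  · exact hℓN h1
  · exact hℓp ((Nat.prime_dvd_prime_iff_eq hℓ hp).mp h1)

/-- **LEVEL** (proved). -/
theorem levelStatement : LevelStatement := by
  intro N _ ℓ hℓ hℓN k
  have hprime : ℓ.Prime := hℓ.out
  by_cases h5 : 5 ≤ ℓ
  · exact level_of_good N ℓ hℓN (Or.inl h5) k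
  have hℓ23 : ℓ = 2 ∨ ℓ = 3 := by
    have h2 := hprime.two_le
    have hlt : ℓ < 5 := not_le.mp h5
    interval_cases ℓ
    · exact Or.inl rfl
    · exact Or.inr rfl
    · exact absurd hprime (by decide)
  rcases hℓ23 with rfl | rfl
  · -- `ℓ = 2`: need `3 ∣ M`
    by_cases h3 : 3 ∣ N
    · exact level_of_good N 2 hℓN (Or.inr (Or.inr ⟨rfl, h3⟩)) k
    · exact level_of_raise N 2 hprime hℓN 3 Nat.prime_three h3 (by decide)
        (Or.inr (Or.inr ⟨rfl, dvd_mul_left 3 N⟩)) k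
  · -- `ℓ = 3`: need `2 ∣ M`
    by_cases h2 : 2 ∣ N
    · exact level_of_good N 3 hℓN (Or.inr (Or.inl ⟨rfl, h2⟩)) k
    · exact level_of_raise N 3 hprime hℓN 2 Nat.prime_two h2 (by decide)
        (Or.inr (Or.inl ⟨rfl, dvd_mul_left 2 N⟩)) k

end Fermat.Agent.S19.H315

end
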