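import Mathlib

/-!
# Cell A3 (S19), node LEVEL, layer L1 (helper315): a finite extension with a "twisted root list"
has no proper intermediate field and is Kummer-closed

Mathlib-only.  Setting: `F'/F` finite, `F' = F(y)`, `P ∈ F[X]` with `P(y) = 0`, a ring
homomorphism `V : F' → T` into a field `T` such that

    V(P) = (X - V y) * ∏_b (X - r_b),      r_b pairwise distinct,  r_b ∉ V(F'),

and for all `b, b'` a ring endomorphism `s` of `T` fixing `V(F')` pointwise with `s r_b = r_b'`.

* `TwistDatum.eq_bot_or_eq_top` : every intermediate field of `F'/F` is `⊥` or `⊤`;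
* `TwistDatum.not_normal`       : if `F'/F` is normal then `y ∈ F`;
* `TwistDatum.mem_range_of_pow_mem` : if `g ∈ F'`, `g ^ n ∈ F` (`n > 0`) and `F` contains a
  primitive `n`-th root of unity, then `g ∈ F`.

Application (file `LevelModular.lean`): `F = ℚ̄(X₀(N))`, `F' = ℚ̄(X₀(Np))`, `p ∤ N`,
`T = ℚ̄((t))`, `q = t^p`, `y = j(q^{Np})`, `r_b = j(ζ^b t^N)`.
-/

set_option autoImplicit false

noncomputable section

namespace Fermat.Agent.S19.H315

open Polynomial IntermediateField

/-- A "twisted root list" for the finite extension `F'/F`. -/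
structure TwistDatum (F F' T : Type*) [Field F] [Field F'] [Field T] [Algebra F F'] where
  /-- the embedding of the top field into the big field -/
  V : F' →+* T
  /-- the generator -/
  y : F'
  gen : F⟮y⟯ = ⊤
  /-- the polynomial -/
  P : F[X]
  /-- index set of the twisted roots -/
  B : Type
  finB : Fintype B
  /-- the twisted roots -/
  r : B → T
  map_P : P.map (V.comp (algebraMap F F')) = (X - C (V y)) * ∏ b : B, (X - C (r b))
  r_inj : Function.Injective r
  r_not_mem : ∀ (b : B) (x : F'), V x ≠ r b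
  trans : ∀ b b' : B, ∃ s : T →+* T, (∀ x : F', s (V x) = V x) ∧ s (r b) = r b'

namespace TwistDatum

variable {F F' T : Type*} [Field F] [Field F'] [Field T] [Algebra F F']
variable (D : TwistDatum F F' T)

attribute [local instance] TwistDatum.finB

/-- The image of `P` in `T[X]`. -/
def Pmap : T[X] := (X - C (D.V D.y)) * ∏ b : D.B, (X - C (D.r b))

theorem Pmap_monic : D.Pmap.Monic :=
  (monic_X_sub_C _).mul (monic_prod_of_monic _ _ fun _ _ => monic_X_sub_C _)

theorem Pmap_ne_zero : D.Pmap ≠ 0 := D.Pmap_monic.ne_zero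

theorem natDegree_Pmap : D.Pmap.natDegree = Fintype.card D.B + 1 := by
  rw [Pmap, Monic.natDegree_mul (monic_X_sub_C _)
    (monic_prod_of_monic _ _ fun b _ => monic_X_sub_C _), natDegree_X_sub_C,
    natDegree_prod_of_monic _ _ fun b _ => monic_X_sub_C _]
  simp [add_comm]

theorem P_ne_zero : D.P ≠ 0 := by
  intro h
  have := D.map_P
  rw [h, Polynomial.map_zero] at this
  exact D.Pmap_ne_zero this.symm

theorem natDegree_P : D.P.natDegree = Fintype.card D.B + 1 := by
  rw [← D.natDegree_Pmap, Pmap, ← D.map_P, natDegree_map]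

theorem aeval_P : aeval D.y D.P = 0 := by
  have h : (D.P.map (D.V.comp (algebraMap F F'))).eval (D.V D.y) = 0 := by
    rw [D.map_P]
    simp
  rw [← Polynomial.map_map, eval_map, Polynomial.eval₂_hom] at h
  have h2 := D.V.injective (h.trans (map_zero D.V).symm)
  rw [Polynomial.aeval_def, Polynomial.eval₂_eq_eval_map]
  exact h2

/-- A divisor of `V(P)` vanishing at `V y` and of degree `≥ 2` vanishes at some twisted root. -/
theorem exists_root_of_dvd {M : T[X]} (hM : M ∣ D.Pmap) (hy : M.IsRoot (D.V D.y))
    (hdeg : 2 ≤ M.natDegree) : ∃ b : D.B, M.IsRoot (D.r b) := by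
  classical
  have hM0 : M ≠ 0 := fun h => by rw [h] at hdeg; simp at hdeg
  obtain ⟨h, rfl⟩ := dvd_iff_isRoot.mpr hy
  have hX : (X - C (D.V D.y) : T[X]) ≠ 0 := X_sub_C_ne_zero _
  have hh0 : h ≠ 0 := right_ne_zero_of_mul hM0
  have hhdvd : h ∣ ∏ b : D.B, (X - C (D.r b)) := by
    rw [Pmap] at hM
    exact (mul_dvd_mul_iff_left hX).mp hM
  have hhdeg : 1 ≤ h.natDegree := by
    rw [natDegree_mul hX hh0, natDegree_X_sub_C] at hdeg
    omega
  by_contra hno
  push Not at hno
  obtain ⟨h', hh'⟩ := hhdvd
  have hprod_ne : (∏ b : D.B, (X - C (D.r b)) : T[X]) ≠ 0 :=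
    (monic_prod_of_monic _ _ fun b _ => monic_X_sub_C _).ne_zero
  have hh'0 : h' ≠ 0 := by
    intro h0
    rw [h0, mul_zero] at hh'
    exact hprod_ne hh'
  have hroot : ∀ b : D.B, h'.IsRoot (D.r b) := by
    intro b
    have h1 : (∏ b : D.B, (X - C (D.r b)) : T[X]).IsRoot (D.r b) := by
      rw [IsRoot, eval_prod]
      exact Finset.prod_eq_zero (Finset.mem_univ b) (by simp)
    rw [hh', IsRoot, eval_mul] at h1
    rcases mul_eq_zero.mp h1 with h2 | h2
    · exact absurd (IsRoot.def.mpr (by simpa using h2)) (fun h3 => hno b (by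
        rw [IsRoot, eval_mul, IsRoot.def.mp h3, mul_zero]))
    · exact h2
  have hdvd' : (∏ b : D.B, (X - C (D.r b)) : T[X]) ∣ h' := by
    refine Finset.prod_dvd_of_coprime ?_ fun b _ => dvd_iff_isRoot.mpr (hroot b)
    intro i _ j _ hij
    exact pairwise_coprime_X_sub_C D.r_inj hij
  have h1 := natDegree_le_of_dvd hdvd' hh'0
  have h2 : (∏ b : D.B, (X - C (D.r b)) : T[X]).natDegree = h.natDegree + h'.natDegree := by
    conv_lhs => rw [hh']
    exact natDegree_mul hh0 hh'0
  omega

/-- A polynomial with coefficients in `V(F')` vanishing at one twisted root vanishes at all. -/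
theorem isRoot_all {m : F'[X]} {b : D.B} (hb : (m.map D.V).IsRoot (D.r b)) (b' : D.B) :
    (m.map D.V).IsRoot (D.r b') := by
  obtain ⟨s, hs, hsb⟩ := D.trans b b'
  have h1 : (m.map D.V).map s = m.map D.V := by
    rw [Polynomial.map_map]
    congr 1
    exact RingHom.ext hs
  have h2 : ((m.map D.V).map s).eval (s (D.r b)) = s ((m.map D.V).eval (D.r b)) := by
    rw [eval_map, Polynomial.eval₂_hom]
  rw [IsRoot.def] at hb ⊢
  rw [← hsb, ← h1, h2, hb, map_zero]

/-- A divisor of `V(P)` with coefficients in `V(F')`, vanishing at `V y`, of degree `≥ 2`, has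
degree `deg P`. -/
theorem natDegree_of_dvd {m : F'[X]} (hM : m.map D.V ∣ D.Pmap) (hy : m.IsRoot D.y)
    (hdeg : 2 ≤ m.natDegree) : D.P.natDegree ≤ m.natDegree := by
  classical
  have hy' : (m.map D.V).IsRoot (D.V D.y) := by
    rw [IsRoot.def, eval_map, Polynomial.eval₂_hom, IsRoot.def.mp hy, map_zero]
  have hdeg' : 2 ≤ (m.map D.V).natDegree := by rwa [natDegree_map]
  obtain ⟨b, hb⟩ := D.exists_root_of_dvd hM hy' hdeg'
  have hall := D.isRoot_all hb
  have hm0 : m.map D.V ≠ 0 := fun h => by rw [h] at hdeg'; simp at hdeg'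
  have hdvd : D.Pmap ∣ m.map D.V := by
    rw [Pmap]
    refine IsCoprime.mul_dvd ?_ (dvd_iff_isRoot.mpr hy') ?_
    · refine IsCoprime.prod_right fun b _ => ?_
      refine isCoprime_X_sub_C_of_isUnit_sub ?_
      exact (sub_ne_zero.mpr (D.r_not_mem b D.y)).isUnit
    · refine Finset.prod_dvd_of_coprime ?_ fun b _ => dvd_iff_isRoot.mpr (hall b)
      intro i _ j _ hij
      exact pairwise_coprime_X_sub_C D.r_inj hij
  have h1 := natDegree_le_of_dvd hdvd hm0
  rw [D.natDegree_Pmap, natDegree_map] at h1
  rw [D.natDegree_P]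
  exact h1

variable [FiniteDimensional F F']

include D

/-- **No proper intermediate field.** -/
theorem eq_bot_or_eq_top (E : IntermediateField F F') : E = ⊥ ∨ E = ⊤ := by
  classical
  by_cases hyE : D.y ∈ E
  · right
    rw [eq_top_iff, ← D.gen]
    exact adjoin_simple_le_iff.mpr hyE
  left
  have hint : IsIntegral E D.y := IsIntegral.of_finite E D.y
  have hintF : IsIntegral F D.y := IsIntegral.of_finite F D.y
  set m := minpoly E D.y with hm
  -- degree of `m` is at least `2`
  have hdeg1 : m.natDegree ≠ 1 := by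
    intro h1
    have := (minpoly.natDegree_eq_one_iff (A := E) (B := F') (x := D.y)).mp h1
    obtain ⟨e, he⟩ := this
    exact hyE (he ▸ e.2)
  have hdeg0 : 0 < m.natDegree := minpoly.natDegree_pos hint
  have hdeg : 2 ≤ (m.map (algebraMap E F')).natDegree := by
    rw [natDegree_map]; omega
  -- `m` divides `P`
  have hdvd : m ∣ D.P.map (algebraMap F E) := by
    refine minpoly.dvd E D.y ?_
    rw [Polynomial.aeval_map_algebraMap]
    exact D.aeval_P
  have hdvd' : (m.map (algebraMap E F')).map D.V ∣ D.Pmap := by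
    have h1 := Polynomial.map_dvd (D.V.comp (algebraMap E F')) hdvd
    rw [Polynomial.map_map, ← Polynomial.map_map (algebraMap E F') D.V] at h1
    have h2 : (D.V.comp (algebraMap E F')).comp (algebraMap F E) = D.V.comp (algebraMap F F') := by
      rw [RingHom.comp_assoc, ← IsScalarTower.algebraMap_eq]
    rw [h2, D.map_P] at h1
    exact h1
  have hroot : (m.map (algebraMap E F')).IsRoot D.y := by
    rw [IsRoot.def, eval_map_algebraMap]
    exact minpoly.aeval E D.y
  have key := D.natDegree_of_dvd hdvd' hroot hdeg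
  rw [natDegree_map] at key
  -- degrees
  have h1 : Module.finrank E E⟮D.y⟯ = m.natDegree := adjoin.finrank hint
  have h2 : Module.finrank E E⟮D.y⟯ ≤ Module.finrank E F' :=
    Submodule.finrank_le (Subalgebra.toSubmodule E⟮D.y⟯.toSubalgebra)
  have h3 : Module.finrank F F⟮D.y⟯ = (minpoly F D.y).natDegree := adjoin.finrank hintF
  have h4 : (minpoly F D.y).natDegree ≤ D.P.natDegree :=
    natDegree_le_of_dvd (minpoly.dvd F D.y D.aeval_P) D.P_ne_zero
  have h5 : Module.finrank F F⟮D.y⟯ = Module.finrank F F' := by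
    rw [D.gen, finrank_top']
  have h6 : Module.finrank F E * Module.finrank E F' = Module.finrank F F' :=
    Module.finrank_mul_finrank F E F'
  have h7 : 0 < Module.finrank F E := Module.finrank_pos
  have h8 : 0 < Module.finrank E F' := Module.finrank_pos
  have h9 : Module.finrank F F' ≤ Module.finrank E F' := by omega
  have h10 : Module.finrank F E = 1 := by
    by_contra hne
    have : 2 ≤ Module.finrank F E := by omega
    nlinarith
  exact finrank_eq_one_iff.mp h10

/-- If `F'/F` is normal then `F' = F` (i.e. `y ∈ F`). -/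
theorem not_normal (hN : Normal F F') : D.y ∈ (⊥ : IntermediateField F F') := by
  classical
  by_contra hy
  have hintF : IsIntegral F D.y := IsIntegral.of_finite F D.y
  set m := minpoly F D.y with hm
  have hdeg1 : m.natDegree ≠ 1 := by
    intro h1
    obtain ⟨e, he⟩ := (minpoly.natDegree_eq_one_iff (A := F) (B := F') (x := D.y)).mp h1
    exact hy (mem_bot.mpr ⟨e, he⟩)
  have hdeg0 : 0 < m.natDegree := minpoly.natDegree_pos hintF
  have hdvd : m ∣ D.P := minpoly.dvd F D.y D.aeval_P
  have hdvd' : (m.map (algebraMap F F')).map D.V ∣ D.Pmap := by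
    have h1 := Polynomial.map_dvd (D.V.comp (algebraMap F F')) hdvd
    rw [D.map_P, ← Polynomial.map_map] at h1
    exact h1
  have hroot : ((m.map (algebraMap F F')).map D.V).IsRoot (D.V D.y) := by
    rw [IsRoot.def, eval_map, Polynomial.eval₂_hom, eval_map_algebraMap,
      minpoly.aeval, map_zero]
  have hdeg : 2 ≤ ((m.map (algebraMap F F')).map D.V).natDegree := by
    rw [natDegree_map, natDegree_map]; omega
  obtain ⟨b, hb⟩ := D.exists_root_of_dvd hdvd' hroot hdeg
  have hsplit : (m.map (algebraMap F F')).Splits := hN.splits D.y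
  have hm0 : m.map (algebraMap F F') ≠ 0 := by
    intro h
    rw [h, Polynomial.map_zero] at hdeg
    simp at hdeg
  obtain ⟨x, hx⟩ := hsplit.mem_range_of_isRoot hm0 hb
  exact D.r_not_mem b x hx

/-- **Kummer-closedness**: an element of `F'` with a power in `F` lies in `F`, provided `F`
contains the relevant roots of unity. -/
theorem mem_range_of_pow_mem {g : F'} {n : ℕ} (hn : 0 < n) {a : F}
    (hg : g ^ n = algebraMap F F' a) {ζ : F} (hζ : IsPrimitiveRoot ζ n) :
    g ∈ (algebraMap F F').range := by
  classical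
  have hbot : ∀ x : F', x ∈ (⊥ : IntermediateField F F') → x ∈ (algebraMap F F').range := by
    intro x hx
    obtain ⟨c, hc⟩ := mem_bot.mp hx
    exact ⟨c, hc⟩
  rcases D.eq_bot_or_eq_top F⟮g⟯ with h | h
  · apply hbot
    rw [← h]
    exact mem_adjoin_simple_self F g
  · -- `F' = F(g)` is a splitting field of `X^n - a`, hence normal
    have hsf : IsSplittingField F F' (X ^ n - C a) := by
      constructor
      · rw [Polynomial.map_sub, Polynomial.map_pow, Polynomial.map_C, Polynomial.map_X]
        exact X_pow_sub_C_splits_of_isPrimitiveRoot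
          (hζ.map_of_injective (algebraMap F F').injective) hg
      · rw [eq_top_iff, ← IntermediateField.top_toSubalgebra, ← h,
          IntermediateField.adjoin_simple_toSubalgebra_of_isAlgebraic (IsAlgebraic.of_finite F g)]
        apply Algebra.adjoin_mono
        rw [Set.singleton_subset_iff, mem_rootSet_of_ne (X_pow_sub_C_ne_zero hn a),
          aeval_def, eval₂_sub, eval₂_X_pow, eval₂_C, hg, sub_self]
    have hN : Normal F F' := Normal.of_isSplittingField (X ^ n - C a)
    have hy := D.not_normal hN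
    have htop : (⊥ : IntermediateField F F') = ⊤ := by
      rw [eq_top_iff, ← D.gen]
      exact adjoin_simple_le_iff.mpr hy
    apply hbot
    rw [htop]
    exact mem_top

end TwistDatum

end Fermat.Agent.S19.H315

end
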