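import Mathlib

/-!
# Cell A3 / WP-W4 (helper315): integral lattices with an orthonormal basis — pure algebra core

Setting: `A` a valuation ring with fraction field `L` and residue map `π : A → k`,
`M` an `L`-vector space (for us: a function field `F`), `V ⊆ M` a finite dimensional
`L`-subspace (for us: a Riemann–Roch space `L(E)`), `Λ ⊆ V` an `A`-submodule (for us: the
functions of `L(E)` with integral `q`-expansion) and a `π`-semilinear reduction map
`red : Λ → W` (for us: reduction of `q`-expansions, `W` = the residue function field).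

Hypotheses:
* `hscale` : every non-zero `f ∈ V` has a multiple `c • f ∈ Λ` with non-zero reduction
  (the Gauss valuation has the same value group as `L` and `ker red = 𝔪 Λ`);
* `hN…` : `Λ = N ∩ V` for a finitely generated `A`-module `N` (finiteness of the model);
* `hdim` : the reduction lands in a `k`-subspace `Wt` with `dim_k Wt ≤ dim_L V`
  (Riemann–Roch on both fibres + equal genus).

Conclusion (`exists_orthonormal_basis`): there is an `L`-basis `e` of `V` with
`Λ = ⊕ A e i` and such that `red (e i)` is a `k`-basis of `Wt`.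
In particular `Λ` is free of rank `dim V` and `Λ / 𝔪 Λ ≃ Wt`.

Everything is Mathlib-only.
-/

set_option autoImplicit false

open Module

namespace Fermat.Agent.S19.H315

section Core

variable {A : Type*} [CommRing A] [IsDomain A] [ValuationRing A]
variable (L : Type*) [Field L] [Algebra A L] [IsFractionRing A L]
variable {M : Type*} [AddCommGroup M] [Module L M] [Module A M] [IsScalarTower A L M]

include L

/-- `M` is torsion free over `A`. -/
theorem eq_zero_of_smul_eq_zero_h315 {a : A} {m : M} (ha : a ≠ 0) (h : a • m = 0) : m = 0 := by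
  have h' : (algebraMap A L a) • m = 0 := by rwa [algebraMap_smul]
  have hne : algebraMap A L a ≠ 0 := by
    intro h0
    exact ha ((IsFractionRing.injective A L) (by rw [h0, map_zero]))
  exact (smul_eq_zero.mp h').resolve_left hne

/-- A submodule of `M` has trivial torsion. -/
theorem torsion_submodule_eq_bot_h315 (Λ : Submodule A M) :
    Submodule.torsion A Λ = ⊥ := by
  rw [eq_bot_iff]
  rintro ⟨m, hm⟩ ⟨⟨a, ha⟩, h⟩
  have ha0 : a ≠ 0 := nonZeroDivisors.ne_zero ha
  have h1 : a • m = 0 := by
    have := congrArg Subtype.val h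
    simpa using this
  have : m = 0 := eq_zero_of_smul_eq_zero_h315 L ha0 h1
  simp [this]

/-- A finitely generated submodule of `M` is free. -/
theorem free_of_fg_h315 (Λ : Submodule A M) (hΛ : Λ.FG) : Module.Free A Λ := by
  have : Module.Finite A Λ := Module.Finite.iff_fg.mpr hΛ
  have : Module.Flat A Λ :=
    (Module.Flat.flat_iff_torsion_eq_bot_of_isBezout).mpr (torsion_submodule_eq_bot_h315 L Λ)
  exact Module.free_of_flat_of_isLocalRing

/-- Saturated submodules of finitely generated submodules are finitely generated. -/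
theorem fg_of_saturated_h315 (N Λ : Submodule A M) (hN : N.FG) (hΛN : Λ ≤ N)
    (hsat : ∀ (a : A) (n : M), a ≠ 0 → n ∈ N → a • n ∈ Λ → n ∈ Λ) : Λ.FG := by
  have : Module.Finite A N := Module.Finite.iff_fg.mpr hN
  set Λ' : Submodule A N := Submodule.comap N.subtype Λ with hΛ'
  -- the quotient is torsion free
  have htors : Submodule.torsion A (N ⧸ Λ') = ⊥ := by
    rw [eq_bot_iff]
    rintro q ⟨⟨a, ha⟩, h⟩
    have ha0 : a ≠ 0 := nonZeroDivisors.ne_zero ha
    obtain ⟨n, rfl⟩ := Submodule.mkQ_surjective Λ' q
    have h1 : a • n ∈ Λ' := by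
      have : Λ'.mkQ (a • n) = 0 := by
        rw [map_smul]
        exact h
      exact (Submodule.Quotient.mk_eq_zero Λ').mp this
    have h2 : (n : M) ∈ Λ := by
      apply hsat a n ha0 n.2
      simpa [hΛ'] using h1
    have : n ∈ Λ' := by simpa [hΛ'] using h2
    simp [this]
  have : Module.Flat A (N ⧸ Λ') :=
    (Module.Flat.flat_iff_torsion_eq_bot_of_isBezout).mpr htors
  have : Module.Free A (N ⧸ Λ') := Module.free_of_flat_of_isLocalRing
  have : Module.FinitePresentation A (N ⧸ Λ') := Module.finitePresentation_of_projective _ _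
  have hker : (LinearMap.ker Λ'.mkQ).FG :=
    Module.FinitePresentation.fg_ker Λ'.mkQ (Submodule.mkQ_surjective Λ')
  rw [Submodule.ker_mkQ] at hker
  have hmap : Submodule.map N.subtype Λ' = Λ := by
    rw [hΛ', Submodule.map_comap_eq, Submodule.range_subtype]
    exact inf_eq_right.mpr hΛN
  rw [← hmap]
  exact hker.map _

/-- **Orthonormal basis of an integral lattice.**  See the module docstring. -/
theorem exists_orthonormal_basis
    {k : Type*} [Field k] (π : A →+* k) (hπ : Function.Surjective π)
    {W : Type*} [AddCommGroup W] [Module k W]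
    (V : Submodule L M) [FiniteDimensional L V]
    (Λ : Submodule A M) (hΛV : ∀ f ∈ Λ, f ∈ V)
    (red : Λ →+ W) (hred : ∀ (a : A) (f : Λ), red (a • f) = π a • red f)
    (hscale : ∀ f ∈ V, f ≠ 0 → ∃ c : L, c ≠ 0 ∧ ∃ h : c • f ∈ Λ, red ⟨c • f, h⟩ ≠ 0)
    (N : Submodule A M) (hN : N.FG) (hΛN : Λ ≤ N) (hNV : ∀ n ∈ N, n ∈ V → n ∈ Λ)
    (Wt : Submodule k W) [FiniteDimensional k Wt] (hredW : ∀ f, red f ∈ Wt)
    (hdim : finrank k Wt ≤ finrank L V) :
    ∃ (n : ℕ) (e : Fin n → M) (he : ∀ i, e i ∈ Λ),
      n = finrank L V ∧ LinearIndependent L e ∧ Submodule.span L (Set.range e) = V ∧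
      Submodule.span A (Set.range e) = Λ ∧
      LinearIndependent k (fun i => red ⟨e i, he i⟩) ∧
      Submodule.span k (Set.range fun i => red ⟨e i, he i⟩) = Wt := by
  classical
  have hmapne : ∀ a : A, a ≠ 0 → algebraMap A L a ≠ 0 := by
    intro a ha h0
    exact ha ((IsFractionRing.injective A L) (by rw [h0, map_zero]))
  -- `Λ` is saturated in `N`, hence finitely generated and free
  have hsat : ∀ (a : A) (n : M), a ≠ 0 → n ∈ N → a • n ∈ Λ → n ∈ Λ := by
    intro a n ha hn han
    apply hNV n hn
    have h1 : a • n ∈ V := hΛV _ han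
    have h2 : n = (algebraMap A L a)⁻¹ • (a • n) := by
      rw [← algebraMap_smul L a n, smul_smul, inv_mul_cancel₀ (hmapne a ha), one_smul]
    rw [h2]
    exact V.smul_mem _ h1
  have hΛfg : Λ.FG := fg_of_saturated_h315 L N Λ hN hΛN hsat
  have : Module.Finite A Λ := Module.Finite.iff_fg.mpr hΛfg
  have : Module.Free A Λ := free_of_fg_h315 L Λ hΛfg
  let b : Module.Basis (Fin (finrank A Λ)) A Λ := Module.finBasis A Λ
  let e : Fin (finrank A Λ) → M := fun i => ((b i : Λ) : M)
  have he : ∀ i, e i ∈ Λ := fun i => (b i).2
  have hindA : LinearIndependent A e :=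
    b.linearIndependent.map' Λ.subtype (Submodule.ker_subtype Λ)
  have hindL : LinearIndependent L e := (LinearIndependent.iff_fractionRing A L).mp hindA
  have hspanA : Submodule.span A (Set.range e) = Λ := by
    have h1 : Set.range e = Λ.subtype '' (Set.range b) := by
      ext x
      simp only [Set.mem_range, Set.mem_image, e]
      constructor
      · rintro ⟨i, rfl⟩
        exact ⟨b i, ⟨i, rfl⟩, rfl⟩
      · rintro ⟨_, ⟨i, rfl⟩, rfl⟩
        exact ⟨i, rfl⟩
    rw [h1, Submodule.span_image, b.span_eq, Submodule.map_top, Submodule.range_subtype]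
  have hspanL : Submodule.span L (Set.range e) = V := by
    apply le_antisymm
    · rw [Submodule.span_le]
      rintro _ ⟨i, rfl⟩
      exact hΛV _ (he i)
    · intro f hf
      by_cases hf0 : f = 0
      · simp [hf0]
      obtain ⟨c, hc, h, -⟩ := hscale f hf hf0
      have h1 : c • f ∈ Submodule.span L (Set.range e) := by
        have h2 : c • f ∈ Submodule.span A (Set.range e) := by
          rw [hspanA]
          exact h
        exact Submodule.span_le_restrictScalars A L _ h2
      have h3 : f = c⁻¹ • (c • f) := by
        rw [smul_smul, inv_mul_cancel₀ hc, one_smul]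
      rw [h3]
      exact Submodule.smul_mem _ _ h1
  have hn : finrank A Λ = finrank L V := by
    have h1 := finrank_span_eq_card hindL
    rw [Fintype.card_fin] at h1
    rw [← h1, hspanL]
  -- the reductions are linearly independent
  have hindk : LinearIndependent k (fun i => red ⟨e i, he i⟩) := by
    rw [Fintype.linearIndependent_iff]
    intro κ hκ
    by_contra hne
    push Not at hne
    obtain ⟨i₀, hi₀⟩ := hne
    choose a ha using fun i => hπ (κ i)
    set f : Λ := ∑ i, a i • b i with hf
    have hredf : red f = 0 := by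
      rw [hf, map_sum]
      simp only [hred, ha]
      exact hκ
    have hrepr : ∀ i, b.repr f i = a i := by
      intro i
      rw [hf, map_sum]
      simp [Finsupp.single_apply]
    have hai₀ : a i₀ ≠ 0 := by
      intro h0
      apply hi₀
      rw [← ha i₀, h0, map_zero]
    have hf0 : (f : M) ≠ 0 := by
      intro h0
      have : f = 0 := Subtype.ext h0
      have h1 := hrepr i₀
      rw [this, map_zero] at h1
      exact hai₀ h1.symm
    obtain ⟨c, hc, h, hredc⟩ := hscale f (hΛV _ f.2) hf0
    rcases ValuationRing.isInteger_or_isInteger A c with ⟨a', ha'⟩ | ⟨a', ha'⟩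
    · apply hredc
      have h1 : (⟨c • (f : M), h⟩ : Λ) = a' • f := by
        apply Subtype.ext
        simp only [Submodule.coe_smul]
        rw [← ha', algebraMap_smul]
      rw [h1, hred, hredf, smul_zero]
    · have hcf : f = a' • (⟨c • (f : M), h⟩ : Λ) := by
        apply Subtype.ext
        simp only [Submodule.coe_smul]
        rw [← algebraMap_smul L a', ha', smul_smul, inv_mul_cancel₀ hc, one_smul]
      have h1 : red f = π a' • red ⟨c • (f : M), h⟩ := by
        rw [← hred]
        exact congrArg red hcf
      rw [hredf] at h1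
      have h2 : π a' = 0 := (smul_eq_zero.mp h1.symm).resolve_right hredc
      have h3 : a i₀ = a' * b.repr ⟨c • (f : M), h⟩ i₀ := by
        have h4 := congrArg (fun g => b.repr g i₀) hcf
        simp only [map_smul, Finsupp.smul_apply, smul_eq_mul] at h4
        rw [← hrepr i₀]
        exact h4
      apply hi₀
      rw [← ha i₀, h3, map_mul, h2, zero_mul]
  -- dimension count
  have hspank : Submodule.span k (Set.range fun i => red ⟨e i, he i⟩) = Wt := by
    apply Submodule.eq_of_le_of_finrank_le
    · rw [Submodule.span_le]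
      rintro _ ⟨i, rfl⟩
      exact hredW _
    · have h1 := finrank_span_eq_card hindk
      rw [Fintype.card_fin] at h1
      rw [h1, hn]
      exact hdim
  exact ⟨finrank A Λ, e, he, hn, hindL, hspanL, hspanA, hindk, hspank⟩

end Core

end Fermat.Agent.S19.H315
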